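import Mathlib

set_option autoImplicit false

/-!
# S33-new, seat P-BR (helper46): the cyclotomic uniformiser `lam = ζ - 1`

`L` a field, `A` a valuation subring of `L` in which the prime `p` is not a unit, `ζ ∈ L` a
primitive `p`-th root of unity, `lam = ζ - 1`.

* `cyc_zeta_mem`      : `ζ ∈ A`;
* `cyc_kappa_mem`, `cyc_kappa_inv_mem` : `p / lam ^ (p - 1)` is a unit of `A`;
* `cyc_lam_mem`, `cyc_lam_inv_not_mem` : `lam` is a nonzero non-unit of `A`;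
* `cyc_twist_mem`     : `(((ζ ^ e - 1) / (ζ - 1)) ^ p - e) / lam ∈ A`
  (for `σ ζ = ζ ^ e`: `σ (lam ^ p) / lam ^ p ≡ e mod lam`).
-/

namespace Fermat.Agent.BadRed.PNew

open Finset

variable {L : Type*} [Field L] (A : ValuationSubring L) {p : ℕ} {ζ : L}

theorem cyc_zeta_mem (hp : p ≠ 0) (hζ : ζ ^ p = 1) : ζ ∈ A := by
  rcases A.mem_or_inv_mem ζ with h | h
  · exact h
  · have hζ0 : ζ ≠ 0 := by
      rintro rfl
      rw [zero_pow hp] at hζ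
      exact zero_ne_one hζ
    have e : ζ = ζ⁻¹ ^ (p - 1) := by
      have h1 : ζ ^ (p - 1) * ζ = 1 := by
        rw [← pow_succ, Nat.sub_add_cancel (Nat.pos_of_ne_zero hp), hζ]
      rw [inv_pow]
      exact eq_inv_of_mul_eq_one_right h1
    rw [e]
    exact pow_mem h _

theorem cyc_geom_mem {x : L} (hx : x ∈ A) (n : ℕ) : ∑ i ∈ range n, x ^ i ∈ A :=
  sum_mem fun i _ => pow_mem hx i

/-- `(x ^ n - 1) / (x - 1) ∈ A` for `x ∈ A`. -/
theorem cyc_div_mem {x : L} (hx : x ∈ A) (hx1 : x ≠ 1) (n : ℕ) : (x ^ n - 1) / (x - 1) ∈ A := by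
  have h : (x ^ n - 1) / (x - 1) = ∑ i ∈ range n, x ^ i := by
    rw [div_eq_iff (sub_ne_zero.mpr hx1)]
    exact (geom_sum_mul x n).symm
  rw [h]
  exact cyc_geom_mem A hx n

variable {A}

theorem cyc_pow_ne_one (_hp : p.Prime) (hζ : IsPrimitiveRoot ζ p) {i : ℕ} (hi : ¬ p ∣ i) :
    ζ ^ i ≠ 1 := fun h => hi ((hζ.pow_eq_one_iff_dvd i).mp h)

theorem cyc_ne_one (hp : p.Prime) (hζ : IsPrimitiveRoot ζ p) : ζ ≠ 1 := by
  have := cyc_pow_ne_one (i := 1) hp hζ (fun h => hp.one_lt.ne' (Nat.dvd_one.mp h))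
  rwa [pow_one] at this

variable (A)

/-- `(ζ - 1) / (ζ ^ i - 1) ∈ A` for `p ∤ i`. -/
theorem cyc_inv_div_mem (hp : p.Prime) (hζ : IsPrimitiveRoot ζ p) {i : ℕ} (hi : ¬ p ∣ i) :
    (ζ - 1) / (ζ ^ i - 1) ∈ A := by
  have hζA : ζ ∈ A := cyc_zeta_mem A hp.ne_zero hζ.pow_eq_one
  have hcop : Nat.Coprime i p := ((Nat.Prime.coprime_iff_not_dvd hp).mpr hi).symm
  obtain ⟨m, -, hm⟩ := Nat.exists_mul_mod_eq_one_of_coprime hcop hp.one_lt
  have h1 : (ζ ^ i) ^ m = ζ := by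
    rw [← pow_mul]
    have h2 : i * m = p * (i * m / p) + 1 := by
      have := Nat.div_add_mod (i * m) p
      omega
    rw [h2, pow_succ, pow_mul, hζ.pow_eq_one, one_pow, one_mul]
  have h3 := cyc_div_mem A (pow_mem hζA i) (cyc_pow_ne_one hp hζ hi) m
  rwa [h1] at h3

/-- `p = (1 - ζ) ^ (p - 1) * ∏ (1 + ζ + ⋯ + ζ ^ k)`. -/
theorem cyc_p_eq (hp : p.Prime) (hζ : IsPrimitiveRoot ζ p) :
    (p : L) = (1 - ζ) ^ (p - 1) * ∏ k ∈ range (p - 1), ∑ j ∈ range (k + 1), ζ ^ j := by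
  have hp1 : p - 1 + 1 = p := Nat.sub_add_cancel hp.pos
  have hζ' : IsPrimitiveRoot ζ (p - 1 + 1) := by rwa [hp1]
  have h := hζ'.prod_one_sub_pow_eq_order
  have h2 : ((p - 1 : ℕ) : L) + 1 = (p : L) := by
    rw [← Nat.cast_succ, Nat.succ_eq_add_one, hp1]
  rw [h2] at h
  rw [← h]
  have h3 : ∀ k ∈ range (p - 1), (1 - ζ ^ (k + 1)) = (1 - ζ) * ∑ j ∈ range (k + 1), ζ ^ j :=
    fun k _ => by
      have := mul_neg_geom_sum ζ (k + 1)
      rw [← this]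
  rw [prod_congr rfl h3, prod_mul_distrib, prod_const, card_range]

theorem cyc_kappa_eq (hp : p.Prime) (hζ : IsPrimitiveRoot ζ p) :
    (p : L) / (ζ - 1) ^ (p - 1) =
      (-1) ^ (p - 1) * ∏ k ∈ range (p - 1), ∑ j ∈ range (k + 1), ζ ^ j := by
  have h0 : (ζ - 1) ^ (p - 1) ≠ 0 := pow_ne_zero _ (sub_ne_zero.mpr (cyc_ne_one hp hζ))
  rw [div_eq_iff h0, cyc_p_eq hp hζ]
  have e : (1 - ζ) = (-1) * (ζ - 1) := by ring
  rw [e, mul_pow]
  ring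

/-- `p / lam ^ (p - 1) ∈ A`. -/
theorem cyc_kappa_mem (hp : p.Prime) (hζ : IsPrimitiveRoot ζ p) :
    (p : L) / (ζ - 1) ^ (p - 1) ∈ A := by
  have hζA : ζ ∈ A := cyc_zeta_mem A hp.ne_zero hζ.pow_eq_one
  rw [cyc_kappa_eq hp hζ]
  refine mul_mem (pow_mem (neg_mem (one_mem _)) _) (prod_mem fun k _ => cyc_geom_mem A hζA _)

/-- `lam ^ (p - 1) / p ∈ A`. -/
theorem cyc_kappa_inv_mem (hp : p.Prime) (hζ : IsPrimitiveRoot ζ p) :
    (ζ - 1) ^ (p - 1) / (p : L) ∈ A := by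
  have hζ1 := cyc_ne_one hp hζ
  have h1 : (ζ - 1) ^ (p - 1) / (p : L) = ((p : L) / (ζ - 1) ^ (p - 1))⁻¹ := by
    rw [inv_div]
  rw [h1, cyc_kappa_eq hp hζ, mul_inv, ← inv_pow, ← prod_inv_distrib]
  refine mul_mem (pow_mem ?_ _) (prod_mem fun k hk => ?_)
  · have : (-1 : L)⁻¹ = -1 := by norm_num
    rw [this]
    exact neg_mem (one_mem _)
  · have hk' : ¬ p ∣ k + 1 := by
      have := mem_range.mp hk
      intro hd
      have := Nat.le_of_dvd (Nat.succ_pos k) hd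
      omega
    have h2 := cyc_inv_div_mem A hp hζ hk'
    have h3 : (∑ j ∈ range (k + 1), ζ ^ j)⁻¹ = (ζ - 1) / (ζ ^ (k + 1) - 1) := by
      rw [← geom_sum_mul ζ (k + 1), div_mul_cancel_right₀ (sub_ne_zero.mpr hζ1)]
    rw [h3]
    exact h2

theorem cyc_lam_mem (hp : p.Prime) (hζ : IsPrimitiveRoot ζ p) : ζ - 1 ∈ A :=
  sub_mem (cyc_zeta_mem A hp.ne_zero hζ.pow_eq_one) (one_mem _)

/-- `lam` is not a unit of `A` when `p` is not. -/
theorem cyc_lam_inv_not_mem (hp : p.Prime) (hζ : IsPrimitiveRoot ζ p)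
    (hpA : ((p : L))⁻¹ ∉ A) : (ζ - 1)⁻¹ ∉ A := by
  intro h
  apply hpA
  have h0 : (ζ - 1) ^ (p - 1) ≠ 0 := pow_ne_zero _ (sub_ne_zero.mpr (cyc_ne_one hp hζ))
  have hp0 : (p : L) ≠ 0 := by
    intro h1
    have := cyc_p_eq hp hζ
    rw [h1] at this
    have h2 := cyc_kappa_inv_mem A hp hζ
    have h3 := cyc_kappa_eq hp hζ
    rw [h1, zero_div] at h3
    have h4 : (-1 : L) ^ (p - 1) ≠ 0 := pow_ne_zero _ (by norm_num)
    have h5 : ∏ k ∈ range (p - 1), ∑ j ∈ range (k + 1), ζ ^ j = 0 := by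
      rcases mul_eq_zero.mp h3.symm with h6 | h6
      · exact absurd h6 h4
      · exact h6
    obtain ⟨k, hk, hk0⟩ := prod_eq_zero_iff.mp h5
    have hk' : ¬ p ∣ k + 1 := by
      have := mem_range.mp hk
      intro hd
      have := Nat.le_of_dvd (Nat.succ_pos k) hd
      omega
    have h7 := geom_sum_mul ζ (k + 1)
    rw [hk0, zero_mul] at h7
    exact cyc_pow_ne_one hp hζ hk' (sub_eq_zero.mp h7.symm)
  have e : ((p : L))⁻¹ = ((ζ - 1) ^ (p - 1) / (p : L)) * ((ζ - 1)⁻¹) ^ (p - 1) := by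
    rw [inv_pow]
    field_simp
  rw [e]
  exact mul_mem (cyc_kappa_inv_mem A hp hζ) (pow_mem h _)

/-- `p / lam ∈ A`. -/
theorem cyc_p_div_lam_mem (hp : p.Prime) (hζ : IsPrimitiveRoot ζ p) : (p : L) / (ζ - 1) ∈ A := by
  have hζ1 := cyc_ne_one hp hζ
  have h0 : ζ - 1 ≠ 0 := sub_ne_zero.mpr hζ1
  have hp2 : p - 1 = (p - 2) + 1 := by
    have := hp.two_le
    omega
  have e : (p : L) / (ζ - 1) = ((p : L) / (ζ - 1) ^ (p - 1)) * (ζ - 1) ^ (p - 2) := by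
    rw [hp2, pow_succ]
    field_simp
  rw [e]
  exact mul_mem (cyc_kappa_mem A hp hζ) (pow_mem (cyc_lam_mem A hp hζ) _)

/-- `(x + y) ^ n - x ^ n ∈ y A` for `x, y ∈ A`. -/
theorem cyc_add_pow_sub_div_mem {x y : L} (hx : x ∈ A) (hy : y ∈ A) (hy0 : y ≠ 0) (n : ℕ) :
    ((x + y) ^ n - x ^ n) / y ∈ A := by
  have h := sub_dvd_pow_sub_pow (⟨x + y, add_mem hx hy⟩ : A) ⟨x, hx⟩ n
  obtain ⟨c, hc⟩ := h
  have h1 := congrArg (Subtype.val : A → L) hc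
  have h2 : (x + y) ^ n - x ^ n = (x + y - x) * (c : L) := by
    simpa using h1
  rw [h2, add_sub_cancel_left, mul_div_cancel_left₀ _ hy0]
  exact c.2

/-- `s = (ζ ^ e - 1) / (ζ - 1) ≡ e mod lam`. -/
theorem cyc_geom_sub_div_mem (hp : p.Prime) (hζ : IsPrimitiveRoot ζ p) (e : ℕ) :
    ((ζ ^ e - 1) / (ζ - 1) - (e : L)) / (ζ - 1) ∈ A := by
  have hζ1 := cyc_ne_one hp hζ
  have h0 : ζ - 1 ≠ 0 := sub_ne_zero.mpr hζ1
  have hζA : ζ ∈ A := cyc_zeta_mem A hp.ne_zero hζ.pow_eq_one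
  have h1 : (ζ ^ e - 1) / (ζ - 1) = ∑ i ∈ range e, ζ ^ i := by
    rw [div_eq_iff h0]
    exact (geom_sum_mul ζ e).symm
  have h2 : (∑ i ∈ range e, ζ ^ i) - (e : L) = ∑ i ∈ range e, (ζ ^ i - 1) := by
    rw [sum_sub_distrib, sum_const, card_range, nsmul_eq_mul, mul_one]
  rw [h1, h2, sum_div]
  exact sum_mem fun i _ => cyc_div_mem A hζA hζ1 i

/-- Fermat: `(e ^ p - e) / lam ∈ A`. -/
theorem cyc_fermat_div_mem (hp : p.Prime) (hζ : IsPrimitiveRoot ζ p) (e : ℕ) :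
    (((e : L)) ^ p - (e : L)) / (ζ - 1) ∈ A := by
  have : Fact p.Prime := ⟨hp⟩
  have h1 : (p : ℤ) ∣ (e : ℤ) ^ p - (e : ℤ) := by
    have h2 : (((e : ℤ) ^ p - (e : ℤ) : ℤ) : ZMod p) = 0 := by
      push_cast
      rw [ZMod.pow_card, sub_self]
    exact (ZMod.intCast_zmod_eq_zero_iff_dvd _ p).mp h2
  obtain ⟨m, hm⟩ := h1
  have h3 : ((e : L)) ^ p - (e : L) = (p : L) * (m : L) := by
    have := congrArg (Int.cast : ℤ → L) hm
    push_cast at this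
    exact this
  rw [h3, mul_div_right_comm]
  exact mul_mem (cyc_p_div_lam_mem A hp hζ) (intCast_mem _ m)

/-- **the twist**: `((ζ ^ e - 1) / (ζ - 1)) ^ p ≡ e mod lam`. -/
theorem cyc_twist_mem (hp : p.Prime) (hζ : IsPrimitiveRoot ζ p) (e : ℕ) :
    (((ζ ^ e - 1) / (ζ - 1)) ^ p - (e : L)) / (ζ - 1) ∈ A := by
  have hζ1 := cyc_ne_one hp hζ
  have h0 : ζ - 1 ≠ 0 := sub_ne_zero.mpr hζ1
  have hζA : ζ ∈ A := cyc_zeta_mem A hp.ne_zero hζ.pow_eq_one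
  set s : L := (ζ ^ e - 1) / (ζ - 1) with hs
  have hsA : s ∈ A := cyc_div_mem A hζA hζ1 e
  have ha := cyc_geom_sub_div_mem A hp hζ e
  rw [← hs] at ha
  have heA : (e : L) ∈ A := natCast_mem _ e
  by_cases hse : s - (e : L) = 0
  · have : s = (e : L) := sub_eq_zero.mp hse
    rw [this]
    exact cyc_fermat_div_mem A hp hζ e
  · have h1 := cyc_add_pow_sub_div_mem A heA (sub_mem hsA heA) hse p
    rw [add_sub_cancel] at h1
    have h2 : (s ^ p - (e : L)) / (ζ - 1) =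
        ((s ^ p - (e : L) ^ p) / (s - (e : L))) * ((s - (e : L)) / (ζ - 1)) +
          (((e : L)) ^ p - (e : L)) / (ζ - 1) := by
      field_simp
      ring
    rw [h2]
    exact add_mem (mul_mem h1 ha) (cyc_fermat_div_mem A hp hζ e)

/-- for `σ ζ = ζ ^ e`: `σ (lam ^ p) / lam ^ p ≡ e mod lam`. -/
theorem cyc_twist_mem_of_map (hp : p.Prime) (hζ : IsPrimitiveRoot ζ p) (σ : L ≃+* L) (e : ℕ)
    (hσ : σ ζ = ζ ^ e) :
    (σ ((ζ - 1) ^ p) / (ζ - 1) ^ p - (e : L)) / (ζ - 1) ∈ A := by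
  have h : σ ((ζ - 1) ^ p) / (ζ - 1) ^ p = ((ζ ^ e - 1) / (ζ - 1)) ^ p := by
    rw [map_pow, map_sub, map_one, hσ, div_pow]
  rw [h]
  exact cyc_twist_mem A hp hζ e

end Fermat.Agent.BadRed.PNew
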