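/-
S33-new, seat W-a (helper94; architect helper66): CONTRACTION of the multiplicative `U_p` on
Laurent series.

For a `p`-th root of unity `ζ` with `(ζ - 1) ∣ p`, and `π' ∣ π (ζ - 1)`, `π' ∣ π ^ p`:

  `∏_b (Y₂ + π Y₁)(ζ^b q) = ∏_b Y₂(ζ^b q) + π' S`.

* `prod_scaleL_add_single_mul` : the statement over any commutative ring.
* `prod_scaleL_add_const_mul` : the statement over a valuation subring (shape of the seat).
* `prod_scaleL_add_const_mul_fixed` : moreover `scaleL ζ S = S` (when `π' ≠ 0`).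
* `prod_scaleL_add_const_mul_qExpand` : moreover `S = qExpand A p S'` (`ζ` primitive, `π' ≠ 0`).

Proof: reduce the coefficients modulo `π'`; there `t := π Y₁` satisfies `t · y(ζ^b q) = t · y(q)`,
`t ^ p = 0` and `p t = 0`.
-/
import Mathlib
import Fermat.Agent.Lib.Kronecker.Formal
import Fermat.Agent.Lib.GaussInt.Basic

set_option autoImplicit false

noncomputable section

namespace Fermat.Agent.BadRed.PNew

open ModularCurve Fermat.Agent.GaussInt Fermat.Agent.Kronecker

section General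

variable {R : Type*} [CommRing R]

/-- ALGEBRA: if `t * y b = t * y0` for all `b ∈ s`, then
`∏_{b ∈ s} (y b + t) = ∏_{b ∈ s} y b + ((y0 + t) ^ #s - y0 ^ #s)`. -/
theorem prod_add_eq_of_mul_eq {ι : Type*} (s : Finset ι) (y : ι → R) (y0 t : R)
    (h : ∀ b ∈ s, t * y b = t * y0) :
    ∏ b ∈ s, (y b + t) = ∏ b ∈ s, y b + ((y0 + t) ^ s.card - y0 ^ s.card) := by
  classical
  induction s using Finset.induction_on with
  | empty => simp
  | insert a s ha ih =>
    have hs : ∀ b ∈ s, t * y b = t * y0 := fun b hb => h b (Finset.mem_insert_of_mem hb)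
    have hta : t * y a = t * y0 := h a (Finset.mem_insert_self a s)
    have hprod : t * ∏ b ∈ s, y b = t * y0 ^ s.card := by
      clear ih h hta
      induction s using Finset.induction_on with
      | empty => simp
      | insert c s hc ih2 =>
        have h1 : t * y c = t * y0 := hs c (Finset.mem_insert_self c s)
        have h2 := ih2 (fun hac => ha (Finset.mem_insert_of_mem hac))
          (fun b hb => hs b (Finset.mem_insert_of_mem hb))
        rw [Finset.prod_insert hc, Finset.card_insert_of_notMem hc, pow_succ]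
        calc t * (y c * ∏ b ∈ s, y b) = (t * y c) * ∏ b ∈ s, y b := by ring
          _ = y0 * (t * ∏ b ∈ s, y b) := by rw [h1]; ring
          _ = t * (y0 ^ s.card * y0) := by rw [h2]; ring
    obtain ⟨E, hE⟩ : t ∣ (y0 + t) ^ s.card - y0 ^ s.card := by
      have := sub_dvd_pow_sub_pow (y0 + t) y0 s.card
      rwa [add_sub_cancel_left] at this
    rw [Finset.prod_insert ha, Finset.prod_insert ha, Finset.card_insert_of_notMem ha, ih hs]
    have h3 : y a * ((y0 + t) ^ s.card - y0 ^ s.card) =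
        y0 * ((y0 + t) ^ s.card - y0 ^ s.card) := by
      rw [hE]
      calc y a * (t * E) = (t * y a) * E := by ring
        _ = y0 * (t * E) := by rw [hta]; ring
    calc (y a + t) * (∏ b ∈ s, y b + ((y0 + t) ^ s.card - y0 ^ s.card))
        = y a * ∏ b ∈ s, y b + t * ∏ b ∈ s, y b
            + y a * ((y0 + t) ^ s.card - y0 ^ s.card)
            + t * ((y0 + t) ^ s.card - y0 ^ s.card) := by ring
      _ = y a * ∏ b ∈ s, y b + t * y0 ^ s.card
            + y0 * ((y0 + t) ^ s.card - y0 ^ s.card)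
            + t * ((y0 + t) ^ s.card - y0 ^ s.card) := by rw [hprod, h3]
      _ = y a * ∏ b ∈ s, y b + ((y0 + t) ^ (s.card + 1) - y0 ^ (s.card + 1)) := by ring

/-- If `c * z = c` then `c * z ^ n = c` for every integer `n`. -/
theorem mul_zpow_eq_of_mul_eq (c : R) (z : Rˣ) (h : c * (z : R) = c) (n : ℤ) :
    c * ((z ^ n : Rˣ) : R) = c := by
  have hnat : ∀ k : ℕ, c * ((z ^ k : Rˣ) : R) = c := by
    intro k
    induction k with
    | zero => simp
    | succ k ih =>
      rw [pow_succ, Units.val_mul, ← mul_assoc, ih, h]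
  have hinv : ∀ k : ℕ, c * (((z ^ k)⁻¹ : Rˣ) : R) = c := by
    intro k
    have h1 := hnat k
    calc c * (((z ^ k)⁻¹ : Rˣ) : R)
        = (c * ((z ^ k : Rˣ) : R)) * (((z ^ k)⁻¹ : Rˣ) : R) := by rw [h1]
      _ = c * (((z ^ k : Rˣ) : R) * (((z ^ k)⁻¹ : Rˣ) : R)) := by ring
      _ = c := by rw [Units.mul_inv, mul_one]
  rcases Int.eq_nat_or_neg n with ⟨k, rfl | rfl⟩
  · rw [zpow_natCast]
    exact hnat k
  · rw [zpow_neg, zpow_natCast]
    exact hinv k

/-- If `c * z = c`, then multiplication by the constant `c` absorbs the substitution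
`q ↦ z q`. -/
theorem single_mul_scaleL_eq (c : R) (z : Rˣ) (h : c * (z : R) = c) (W : LaurentSeries R) :
    HahnSeries.single 0 c * scaleL z W = HahnSeries.single 0 c * W := by
  ext n
  rw [HahnSeries.coeff_single_zero_mul, HahnSeries.coeff_single_zero_mul, scaleL_coeff,
    ← mul_assoc, mul_zpow_eq_of_mul_eq c z h n]

theorem scaleL_single_zero (z : Rˣ) (c : R) :
    scaleL z (HahnSeries.single 0 c : LaurentSeries R) = HahnSeries.single 0 c := by
  ext n
  rw [scaleL_coeff]
  by_cases hn : n = 0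
  · subst hn
    simp
  · rw [HahnSeries.coeff_single_of_ne hn, mul_zero]

/-- KERNEL of the reduction modulo `π'`: a series all of whose coefficients are multiples of
`π'` is `π'` times a series. -/
theorem exists_eq_single_mul_of_coeffMap_eq_zero (π' : R) (Y : LaurentSeries R)
    (hY : coeffMap (Ideal.Quotient.mk (Ideal.span {π'})) Y = 0) :
    ∃ S : LaurentSeries R, Y = HahnSeries.single 0 π' * S := by
  classical
  have hc : ∀ n : ℤ, ∃ s : R, Y.coeff n = π' * s ∧ (Y.coeff n = 0 → s = 0) := by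
    intro n
    by_cases h0 : Y.coeff n = 0
    · exact ⟨0, by rw [h0, mul_zero], fun _ => rfl⟩
    · have h1 : Ideal.Quotient.mk (Ideal.span {π'}) (Y.coeff n) = 0 := by
        have := congrArg (fun Q : LaurentSeries (R ⧸ Ideal.span {π'}) => Q.coeff n) hY
        simpa using this
      rw [Ideal.Quotient.eq_zero_iff_mem, Ideal.mem_span_singleton] at h1
      obtain ⟨s, hs⟩ := h1
      exact ⟨s, hs, fun h => absurd h h0⟩
  choose s hs hs0 using hc
  refine ⟨⟨s, Y.isPWO_support.mono (fun n hn => ?_)⟩, ?_⟩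
  · rw [Function.mem_support] at hn
    rw [HahnSeries.mem_support]
    exact fun h => hn (hs0 n h)
  · ext n
    rw [HahnSeries.coeff_single_zero_mul]
    exact hs n

/-- CONTRACTION of the multiplicative `U_p`, over any commutative ring. -/
theorem prod_scaleL_add_single_mul (p : ℕ) (hp : p.Prime) (ζ : Rˣ)
    (hpl : ((ζ : R) - 1) ∣ (p : R)) (π π' : R) (h1 : π' ∣ π * ((ζ : R) - 1)) (h2 : π' ∣ π ^ p)
    (Y₁ Y₂ : LaurentSeries R) :
    ∃ S : LaurentSeries R,
      ∏ b ∈ Finset.range p, scaleL (ζ ^ b) (Y₂ + HahnSeries.single 0 π * Y₁) =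
        ∏ b ∈ Finset.range p, scaleL (ζ ^ b) Y₂ + HahnSeries.single 0 π' * S := by
  classical
  set I : Ideal R := Ideal.span {π'} with hI
  set f : R →+* R ⧸ I := Ideal.Quotient.mk I with hf
  set z : (R ⧸ I)ˣ := Units.map (f : R →* R ⧸ I) ζ with hz
  set c : R ⧸ I := f π with hcdef
  -- the three facts about `c = π mod π'`
  have hcz : c * (z : R ⧸ I) = c := by
    have h3 : f (π * ((ζ : R) - 1)) = 0 := by
      rw [hf, Ideal.Quotient.eq_zero_iff_mem, hI, Ideal.mem_span_singleton]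
      exact h1
    rw [map_mul, map_sub, map_one] at h3
    have h4 : (z : R ⧸ I) = f (ζ : R) := rfl
    rw [h4]
    have h5 : c * (f (ζ : R) - 1) = 0 := h3
    rw [mul_sub, mul_one, sub_eq_zero] at h5
    exact h5
  have hcp : c ^ p = 0 := by
    rw [hcdef, ← map_pow, hf, Ideal.Quotient.eq_zero_iff_mem, hI, Ideal.mem_span_singleton]
    exact h2
  have hpc : (p : R ⧸ I) * c = 0 := by
    have h3 : π' ∣ (p : R) * π := by
      obtain ⟨u, hu⟩ := hpl
      refine h1.trans ⟨u, ?_⟩
      rw [hu]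
      ring
    have h4 : f ((p : R) * π) = 0 := by
      rw [hf, Ideal.Quotient.eq_zero_iff_mem, hI, Ideal.mem_span_singleton]
      exact h3
    rw [map_mul, map_natCast] at h4
    exact h4
  -- the reduced series
  set cm : LaurentSeries R →+* LaurentSeries (R ⧸ I) := coeffMap f with hcm
  set t : LaurentSeries (R ⧸ I) := HahnSeries.single 0 c * cm Y₁ with ht
  set y0 : LaurentSeries (R ⧸ I) := cm Y₂ with hy0
  have hzpow : ∀ b : ℕ, c * ((z ^ b : (R ⧸ I)ˣ) : R ⧸ I) = c := fun b => by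
    have := mul_zpow_eq_of_mul_eq c z hcz (b : ℤ)
    rwa [zpow_natCast] at this
  have hcmscale : ∀ (b : ℕ) (Y : LaurentSeries R),
      cm (scaleL (ζ ^ b) Y) = scaleL (z ^ b) (cm Y) := by
    intro b Y
    rw [hcm, coeffMap_scaleL, map_pow]
  have hterm : ∀ b : ℕ, cm (scaleL (ζ ^ b) (Y₂ + HahnSeries.single 0 π * Y₁)) =
      scaleL (z ^ b) y0 + t := by
    intro b
    rw [hcmscale, map_add, map_add, map_mul, map_mul]
    congr 1
    rw [hcm, coeffMap_single, scaleL_single_zero]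
    exact single_mul_scaleL_eq c (z ^ b) (hzpow b) _
  have hty : ∀ b ∈ Finset.range p, t * scaleL (z ^ b) y0 = t * y0 := by
    intro b _
    rw [ht]
    calc HahnSeries.single 0 c * cm Y₁ * scaleL (z ^ b) y0
        = cm Y₁ * (HahnSeries.single 0 c * scaleL (z ^ b) y0) := by ring
      _ = cm Y₁ * (HahnSeries.single 0 c * y0) := by
          rw [single_mul_scaleL_eq c (z ^ b) (hzpow b)]
      _ = HahnSeries.single 0 c * cm Y₁ * y0 := by ring
  have hpow : (y0 + t) ^ p - y0 ^ p = 0 := by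
    obtain ⟨r, hr⟩ := exists_add_pow_prime_eq hp y0 t
    have hC : (HahnSeries.single 0 c : LaurentSeries (R ⧸ I)) = HahnSeries.C c :=
      (HahnSeries.C_apply c).symm
    have htp : t ^ p = 0 := by
      rw [ht, mul_pow, hC, ← map_pow, hcp, map_zero, zero_mul]
    have hpt : (p : LaurentSeries (R ⧸ I)) * t = 0 := by
      have h3 : (p : LaurentSeries (R ⧸ I)) = HahnSeries.C (p : R ⧸ I) := by
        rw [map_natCast]
      rw [ht, h3, ← mul_assoc, hC, ← map_mul, hpc, map_zero, zero_mul]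
    rw [hr, htp]
    calc y0 ^ p + 0 + (p : LaurentSeries (R ⧸ I)) * y0 * t * r - y0 ^ p
        = ((p : LaurentSeries (R ⧸ I)) * t) * (y0 * r) := by ring
      _ = 0 := by rw [hpt, zero_mul]
  have hred : cm (∏ b ∈ Finset.range p, scaleL (ζ ^ b) (Y₂ + HahnSeries.single 0 π * Y₁)
      - ∏ b ∈ Finset.range p, scaleL (ζ ^ b) Y₂) = 0 := by
    rw [map_sub, map_prod, map_prod]
    rw [Finset.prod_congr rfl (fun b _ => hterm b),
      Finset.prod_congr rfl (fun b _ => hcmscale b Y₂)]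
    rw [prod_add_eq_of_mul_eq (Finset.range p) (fun b => scaleL (z ^ b) y0) y0 t hty,
      Finset.card_range, hpow, add_zero, sub_self]
  obtain ⟨S, hS⟩ := exists_eq_single_mul_of_coeffMap_eq_zero π' _ hred
  exact ⟨S, by rw [← hS]; ring⟩

end General

section Valuation

variable {K : Type*} [Field K] (A : ValuationSubring K)

set_option linter.unusedVariables false in
/-- CONTRACTION of the multiplicative `U_p`:
`∏_b (Y₂ + π Y₁)(ζ^b q) = ∏_b Y₂(ζ^b q) + π' S`, `π' ∣ π (ζ - 1)`, `π' ∣ π ^ p`. -/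
theorem prod_scaleL_add_const_mul (p : ℕ) (hp : p.Prime) (ζ : Aˣ) (hζ : ζ ^ p = 1)
    (hpl : ((ζ : A) - 1) ∣ (p : A)) (π π' : A) (h1 : π' ∣ π * ((ζ : A) - 1)) (h2 : π' ∣ π ^ p)
    (Y₁ Y₂ : LaurentSeries A) :
    ∃ S : LaurentSeries A,
      ∏ b ∈ Finset.range p, scaleL (ζ ^ b) (Y₂ + constA A π * Y₁) =
        ∏ b ∈ Finset.range p, scaleL (ζ ^ b) Y₂ + constA A π' * S :=
  prod_scaleL_add_single_mul p hp ζ hpl π π' h1 h2 Y₁ Y₂

theorem constA_mul_left_cancel {π' : A} (hπ' : π' ≠ 0) {S T : LaurentSeries A}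
    (h : constA A π' * S = constA A π' * T) : S = T := by
  refine HahnSeries.ext (funext fun n => ?_)
  have h1 := congrArg (fun Q : LaurentSeries A => Q.coeff n) h
  simp only [constA, HahnSeries.coeff_single_zero_mul] at h1
  exact mul_left_cancel₀ hπ' h1

/-- The series `S` of the contraction is fixed by `q ↦ ζ q` (when `π' ≠ 0`). -/
theorem prod_scaleL_add_const_mul_fixed (p : ℕ) (hp : p.Prime) (ζ : Aˣ) (hζ : ζ ^ p = 1)
    (hpl : ((ζ : A) - 1) ∣ (p : A)) (π π' : A) (hπ' : π' ≠ 0) (h1 : π' ∣ π * ((ζ : A) - 1))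
    (h2 : π' ∣ π ^ p) (Y₁ Y₂ : LaurentSeries A) :
    ∃ S : LaurentSeries A, scaleL ζ S = S ∧
      ∏ b ∈ Finset.range p, scaleL (ζ ^ b) (Y₂ + constA A π * Y₁) =
        ∏ b ∈ Finset.range p, scaleL (ζ ^ b) Y₂ + constA A π' * S := by
  obtain ⟨S, hS⟩ := prod_scaleL_add_const_mul A p hp ζ hζ hpl π π' h1 h2 Y₁ Y₂
  refine ⟨S, ?_, hS⟩
  have h3 := congrArg (scaleL ζ) hS
  rw [scaleL_prod_scaleL p ζ hζ, map_add, scaleL_prod_scaleL p ζ hζ, map_mul, hS] at h3
  have h4 : scaleL ζ (constA A π') = constA A π' := scaleL_single_zero ζ π'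
  rw [h4] at h3
  exact (constA_mul_left_cancel A hπ' (add_left_cancel h3)).symm

/-- The series `S` of the contraction is a series in `q ^ p` (when `ζ` is primitive and
`π' ≠ 0`). -/
theorem prod_scaleL_add_const_mul_qExpand (p : ℕ) [NeZero p] (hp : p.Prime) (ζ : Aˣ)
    (hζ : IsPrimitiveRoot ζ p)
    (hpl : ((ζ : A) - 1) ∣ (p : A)) (π π' : A) (hπ' : π' ≠ 0) (h1 : π' ∣ π * ((ζ : A) - 1))
    (h2 : π' ∣ π ^ p) (Y₁ Y₂ : LaurentSeries A) :
    ∃ S' : LaurentSeries A,
      ∏ b ∈ Finset.range p, scaleL (ζ ^ b) (Y₂ + constA A π * Y₁) =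
        ∏ b ∈ Finset.range p, scaleL (ζ ^ b) Y₂ + constA A π' * qExpand A p S' := by
  obtain ⟨S, hfix, hS⟩ :=
    prod_scaleL_add_const_mul_fixed A p hp ζ hζ.pow_eq_one hpl π π' hπ' h1 h2 Y₁ Y₂
  obtain ⟨W, hW⟩ := exists_qExpand_eq_of_scaleL_eq p ζ hζ S hfix
  exact ⟨W, by rw [hW]; exact hS⟩

end Valuation

end Fermat.Agent.BadRed.PNew
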