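import Mathlib
import Fermat.Agent.Lib.BadRed.PNew.Contract
import Fermat.Agent.Lib.Kronecker.Congruence
import Fermat.Agent.Lib.Kronecker.ConjGens2

set_option autoImplicit false
set_option linter.style.haveILetI false
set_option linter.unusedSectionVars false

/-!
# S33-new, (W1), part 1: contraction of the multiplicative `U_p` on `1`-units  (helper66)

`A` a valuation subring of `K` with residue characteristic `p`, `ζ ∈ A` a primitive `p`-th root
of unity, `F ⊆ K((q))` a field of series which is stable under the multiplicative `U_p`-operator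
`Nφ` (`(Nφ z)(q^p) = ∏_{b<p} z(ζ^b q)`).

`LevP A F π x` : `x ≡ 1` modulo `π` in the Gauss ring of `F` (presentation form:
`x · Y₂ = Y₂ + π Y₁` with `Y₁, Y₂ ∈ F` integral, `Y₂` primitive).

`LevP.contract` : if `y(q^p) = ∏_b x(ζ^b q)` and `x ≡ 1 mod π` then `y ≡ 1 mod π'` for every
`π' ≠ 0` dividing `π (ζ - 1)` and `π ^ p`.
-/

noncomputable section

namespace Fermat.Agent.BadRed.PNew

open ModularCurve Fermat.Agent.GaussInt Fermat.Agent.Kronecker

variable {K : Type*} [Field K] (A : ValuationSubring K)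
  (F : IntermediateField K (LaurentSeries K))

/-- `x ≡ 1 mod π` in the Gauss ring of `F`, presentation form. -/
def LevP (π : A) (x : LaurentSeries K) : Prop :=
  ∃ Y₁ Y₂ : LaurentSeries A, emb A Y₁ ∈ F ∧ emb A Y₂ ∈ F ∧ red A Y₂ ≠ 0 ∧
    x * emb A Y₂ = emb A (Y₂ + constA A π * Y₁)

variable {A F}

theorem LevP.mem {π : A} {x : LaurentSeries K} (h : LevP A F π x) : x ∈ F := by
  obtain ⟨Y₁, Y₂, h1, h2, h3, h4⟩ := h
  have h0 : emb A Y₂ ≠ 0 := by
    intro h0
    have : Y₂ = 0 := emb_injective A (by rw [h0, map_zero])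
    exact h3 (by rw [this, map_zero])
  have : x = emb A (Y₂ + constA A π * Y₁) / emb A Y₂ := by
    rw [eq_div_iff h0, h4]
  rw [this]
  refine div_mem ?_ h2
  rw [map_add, map_mul, emb_constA]
  exact add_mem h2 (mul_mem (F.algebraMap_mem _) h1)

theorem levP_one (π : A) : LevP A F π 1 :=
  ⟨0, 1, by simp, by simp, by simp, by simp⟩

/-- weakening of the level. -/
theorem LevP.of_dvd {π π' : A} {x : LaurentSeries K} (h : LevP A F π x) (hd : π' ∣ π) :
    LevP A F π' x := by
  obtain ⟨Y₁, Y₂, h1, h2, h3, h4⟩ := h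
  obtain ⟨a, rfl⟩ := hd
  refine ⟨constA A a * Y₁, Y₂, ?_, h2, h3, ?_⟩
  · rw [map_mul, emb_constA]
    exact mul_mem (F.algebraMap_mem _) h1
  · rw [h4]
    congr 2
    rw [← mul_assoc]
    congr 1
    rw [constA, constA, constA, HahnSeries.single_mul_single, add_zero]

/-- from the presentation to the Gauss ring. -/
theorem LevP.sub_one_div_mem {π : A} (hπ : (π : K) ≠ 0) {x : LaurentSeries K}
    (h : LevP A F π x) :
    (x - 1) / algebraMap K (LaurentSeries K) (π : K) ∈ gaussSub A F := by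
  obtain ⟨Y₁, Y₂, h1, h2, h3, h4⟩ := h
  refine ⟨Y₁, Y₂, h1, h2, h3, ?_⟩
  have hπ' : algebraMap K (LaurentSeries K) (π : K) ≠ 0 := by
    rwa [Ne, map_eq_zero_iff _ (algebraMap K (LaurentSeries K)).injective]
  rw [map_add, map_mul, emb_constA] at h4
  field_simp
  linear_combination h4

/-- from the Gauss ring to the presentation. -/
theorem levP_of_mem {π : A} (hπ : (π : K) ≠ 0) {x : LaurentSeries K}
    (h : (x - 1) / algebraMap K (LaurentSeries K) (π : K) ∈ gaussSub A F) : LevP A F π x := by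
  obtain ⟨Y₁, Y₂, h⟩ := h
  refine ⟨Y₁, Y₂, h.mem₁, h.mem₂, h.prim, ?_⟩
  have hπ' : algebraMap K (LaurentSeries K) (π : K) ≠ 0 := by
    rwa [Ne, map_eq_zero_iff _ (algebraMap K (LaurentSeries K)).injective]
  have h4 := h.eq
  rw [map_add, map_mul, emb_constA, ← h4]
  field_simp
  ring

section Contract

variable (p : ℕ) [Fact p.Prime] [CharP (IsLocalRing.ResidueField A) p]

omit [Fact p.Prime] [CharP (IsLocalRing.ResidueField A) p] in
theorem emb_prod_scaleL (ζ : Aˣ) (Y : LaurentSeries A) :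
    emb A (∏ b ∈ Finset.range p, scaleL (ζ ^ b) Y) =
      ∏ b ∈ Finset.range p, scaleL ((Units.map (A.subtype : A →* K) ζ) ^ b) (emb A Y) := by
  rw [map_prod]
  refine Finset.prod_congr rfl fun b _ => ?_
  rw [coeffMap_scaleL, map_pow]

omit [Fact p.Prime] [CharP (IsLocalRing.ResidueField A) p] in
theorem emb_qExpand [NeZero p] (Y : LaurentSeries A) :
    emb A (qExpand A p Y) = qExpand K p (emb A Y) := by
  ext k
  by_cases hk : (p : ℤ) ∣ k
  · obtain ⟨m, rfl⟩ := hk
    rw [emb_coeff, qExpand_coeff_mul, qExpand_coeff_mul, emb_coeff]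
  · rw [emb_coeff, qExpand_coeff_of_not_dvd p _ hk, qExpand_coeff_of_not_dvd p _ hk]
    rfl

/-- **CONTRACTION**: `y(q^p) = ∏_b x(ζ^b q)`, `x ≡ 1 mod π` ⟹ `y ≡ 1 mod π'`. -/
theorem LevP.contract (ζ : Aˣ) (hζ : IsPrimitiveRoot ζ p)
    (hpl : ((ζ : A) - 1) ∣ (p : A))
    (hN : haveI : NeZero p := ⟨(Fact.out : p.Prime).ne_zero⟩
      ∀ z ∈ F, ∃ n ∈ F, qExpand K p n =
        ∏ b ∈ Finset.range p, scaleL ((Units.map (A.subtype : A →* K) ζ) ^ b) z)
    {π π' : A} (hπ' : π' ≠ 0) (h1 : π' ∣ π * ((ζ : A) - 1)) (h2 : π' ∣ π ^ p)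
    {x y : LaurentSeries K} (hy : y ∈ F)
    (hxy : haveI : NeZero p := ⟨(Fact.out : p.Prime).ne_zero⟩
      qExpand K p y =
        ∏ b ∈ Finset.range p, scaleL ((Units.map (A.subtype : A →* K) ζ) ^ b) x)
    (hx : LevP A F π x) : LevP A F π' y := by
  haveI : NeZero p := ⟨(Fact.out : p.Prime).ne_zero⟩
  obtain ⟨Y₁, Y₂, hY₁, hY₂, hprim, hxY⟩ := hx
  obtain ⟨S, hS⟩ := prod_scaleL_add_const_mul A p Fact.out ζ hζ.pow_eq_one hpl π π' h1 h2 Y₁ Y₂
  set W₂ : LaurentSeries A := ∏ b ∈ Finset.range p, scaleL (ζ ^ b) Y₂ with hW₂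
  set W₃ : LaurentSeries A :=
    ∏ b ∈ Finset.range p, scaleL (ζ ^ b) (Y₂ + constA A π * Y₁) with hW₃
  have hfix₂ : scaleL ζ W₂ = W₂ := scaleL_prod_scaleL p ζ hζ.pow_eq_one Y₂
  have hfix₃ : scaleL ζ W₃ = W₃ := scaleL_prod_scaleL p ζ hζ.pow_eq_one _
  have hc0 : constA A π' ≠ 0 := by
    rw [constA]
    intro h
    exact hπ' (HahnSeries.single_eq_zero_iff.mp h)
  have hscc : scaleL ζ (constA A π') = constA A π' := by
    rw [constA, scaleL_single, zpow_zero, Units.val_one, one_mul]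
  have hfixS : scaleL ζ S = S := by
    have h3 : scaleL ζ (constA A π' * S) = constA A π' * S := by
      have e : constA A π' * S = W₃ - W₂ := by rw [hS]; ring
      rw [e, map_sub, hfix₂, hfix₃]
    rw [map_mul, hscc] at h3
    exact mul_left_cancel₀ hc0 h3
  obtain ⟨V₂, hV₂⟩ := exists_qExpand_eq_of_scaleL_eq p ζ hζ W₂ hfix₂
  obtain ⟨S', hS'⟩ := exists_qExpand_eq_of_scaleL_eq p ζ hζ S hfixS
  have hP : (∏ b ∈ Finset.range p, scaleL ((Units.map (A.subtype : A →* K) ζ) ^ b) x) *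
      emb A W₂ = emb A W₃ := by
    rw [hW₂, hW₃, emb_prod_scaleL, emb_prod_scaleL, ← Finset.prod_mul_distrib]
    refine Finset.prod_congr rfl fun b _ => ?_
    rw [← map_mul, hxY]
  have hqW₂ : emb A W₂ = qExpand K p (emb A V₂) := by rw [← hV₂, emb_qExpand]
  have hqc : qExpand A p (constA A π') = constA A π' := by
    rw [constA, qExpand_single, mul_zero]
  have key : qExpand K p (y * emb A V₂) = qExpand K p (emb A (V₂ + constA A π' * S')) := by
    have e1 : qExpand A p (V₂ + constA A π' * S') = W₂ + constA A π' * S := by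
      rw [map_add, map_mul, hV₂, hS', hqc]
    rw [map_mul, hxy, ← hqW₂, hP, hS, ← emb_qExpand, e1]
  have hyV : y * emb A V₂ = emb A (V₂ + constA A π' * S') := qExpand_injective p key
  obtain ⟨n, hnF, hn⟩ := hN (emb A Y₂) hY₂
  have hnV : n = emb A V₂ := by
    apply qExpand_injective (R := K) p
    rw [hn, ← emb_prod_scaleL, ← hW₂, hqW₂]
  have hV₂F : emb A V₂ ∈ F := hnV ▸ hnF
  have hπK : algebraMap K (LaurentSeries K) (π' : K) ≠ 0 := by
    rw [Ne, map_eq_zero_iff _ (algebraMap K (LaurentSeries K)).injective]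
    exact fun h => hπ' (Subtype.ext h)
  have hS'F : emb A S' ∈ F := by
    have h5 : algebraMap K (LaurentSeries K) (π' : K) * emb A S' = y * emb A V₂ - emb A V₂ := by
      rw [hyV, map_add, map_mul, emb_constA]
      ring
    have h6 : emb A S' =
        (algebraMap K (LaurentSeries K) (π' : K))⁻¹ * (y * emb A V₂ - emb A V₂) := by
      rw [← h5, ← mul_assoc, inv_mul_cancel₀ hπK, one_mul]
    rw [h6]
    exact mul_mem (inv_mem (F.algebraMap_mem _)) (sub_mem (mul_mem hy hV₂F) hV₂F)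
  have hprimV : red A V₂ ≠ 0 := by
    have hk := kronecker_formal p (IsLocalRing.residue A) ζ hζ.pow_eq_one Y₂ V₂ (hV₂.trans hW₂)
    intro h0
    apply hprim
    have h7 : coeffMap (frobenius (IsLocalRing.ResidueField A) p) (red A Y₂) = 0 := by
      rw [← hk]
      exact h0
    exact coeffMap_injective_of_injective _
      (frobenius (IsLocalRing.ResidueField A) p).injective (by rw [h7, map_zero])
  exact ⟨S', V₂, hS'F, hV₂F, hprimV, hyV⟩

end Contract

end Fermat.Agent.BadRed.PNew
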