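import Mathlib
import Fermat.Agent.Lib.BadRed.PNew.LevP
import Fermat.Agent.Lib.BadRed.Bridge.NormAt
import Fermat.Agent.Lib.BadRed.Bridge.P1
import Fermat.Agent.Lib.BadRed.Mod.Arch

set_option autoImplicit false
set_option linter.style.haveILetI false
set_option linter.unusedSectionVars false
set_option linter.unusedVariables false
set_option synthInstance.maxHeartbeats 400000
set_option maxHeartbeats 1000000

/-!
# S33-new, (W1): `p`-new classes in the kernel of reduction are SPLIT  (helper66)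

Level `M = N₀ p` (`p ∤ N₀`), `α : F_{N₀} ⊂ F_M`, `w = wAt D hM` the Atkin–Lehner involution,
`A` a place of `ℚ̄` over `p`.  A function `g ∈ F_M` is NEW (`IsNewFn`) if `Norm_α g` and
`Norm_α (w g)` are constants times `p`-th powers (function form of `α_* x = 0 = β_* x` for the
class `x` with `p D = div g`).

`w1_split` : `g` new, `g ≡ 1` modulo the maximal ideal of the Gauss ring ⟹
`g = c H ^ p G` with `G ≡ 1` modulo `p ^ 2` in the Gauss ring.

Proof: the norm product formula `Norm_α x = x · Nφ(w x)` (`norm_expansion_wAt`) gives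
`g = c H^p · Nφ (Nφ g)` for new `g`, and `Nφ` is a contraction on `1`-units (`LevP.contract`).
-/

noncomputable section

namespace Fermat.Agent.BadRed.PNew

open ModularCurve AlgebraicCurve Fermat.Agent.F3 Fermat.Agent.F3G Fermat.Agent.GaussInt
  Fermat.Agent.AtkinLehner Fermat.Agent.Kronecker

local notation "Qb" => AlgebraicClosure ℚ

variable {N₀ p : ℕ} [NeZero N₀] [NeZero p]

/-- **NEW, function form**: the norms of `g` and of `w g` are constants times `p`-th powers. -/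
def IsNewFn (D : ALData) (hM : N₀ * p = D.Q * D.R) (g : FBar (N₀ * p)) : Prop :=
  (∃ (a : FBar N₀) (c : Qb), c ≠ 0 ∧
      normAlong (heckeAlphaBar Qb N₀ p) g = algebraMap Qb (FBar N₀) c * a ^ p) ∧
    (∃ (a : FBar N₀) (c : Qb), c ≠ 0 ∧
      normAlong (heckeAlphaBar Qb N₀ p) (wAt D hM g) = algebraMap Qb (FBar N₀) c * a ^ p)

section Norm

variable (hp : p.Prime) (hpN : ¬ p ∣ N₀)
include hp hpN

theorem finiteAlong_alpha : FiniteAlong Qb (heckeAlphaBar Qb N₀ p) :=
  (finrank_heckeAlphaBar N₀ p hp hpN).1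

/-- the norm of a constant. -/
theorem normAlong_const (c : Qb) :
    normAlong (heckeAlphaBar Qb N₀ p) (algebraMap Qb (FBar (N₀ * p)) c) =
      algebraMap Qb (FBar N₀) (c ^ (p + 1)) := by
  letI := (heckeAlphaBar Qb N₀ p).toRingHom.toAlgebra
  obtain ⟨hfd, hrank⟩ := finrank_heckeAlphaBar N₀ p hp hpN
  have h1 : algebraMap Qb (FBar (N₀ * p)) c =
      algebraMap (FBar N₀) (FBar (N₀ * p)) (algebraMap Qb (FBar N₀) c) :=
    ((heckeAlphaBar Qb N₀ p).commutes c).symm
  have h2 := Algebra.norm_algebraMap (S := FBar (N₀ * p)) (algebraMap Qb (FBar N₀) c)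
  rw [hrank] at h2
  show Algebra.norm (FBar N₀) (algebraMap Qb (FBar (N₀ * p)) c) = _
  rw [h1, h2, map_pow]

theorem normAlong_ne_zero' {x : FBar (N₀ * p)} (hx : x ≠ 0) :
    normAlong (heckeAlphaBar Qb N₀ p) x ≠ 0 :=
  normAlong_ne_zero _ (finiteAlong_alpha hp hpN) hx

end Norm

section Nphi

variable (D : ALData) (hM : N₀ * p = D.Q * D.R)

/-- the multiplicative `U_p`-operator `Nφ z := α (Norm_α (w z)) / w z`. -/
def nphi (z : FBar (N₀ * p)) : FBar (N₀ * p) :=
  heckeAlphaBar Qb N₀ p (normAlong (heckeAlphaBar Qb N₀ p) (wAt D hM z)) / wAt D hM z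

theorem wAt_ne_zero {z : FBar (N₀ * p)} (hz : z ≠ 0) : wAt D hM z ≠ 0 :=
  (map_ne_zero_iff _ (wAt D hM).injective).mpr hz

variable (hp : p.Prime) (hpN : ¬ p ∣ N₀)
  (ζ : Qbˣ)
  (hE : ∀ x : FBar (N₀ * p),
      qExpand Qb p ((normAlong (heckeAlphaBar Qb N₀ p) x : FBar N₀) : LaurentSeries Qb) =
        qExpand Qb p (x : LaurentSeries Qb) *
          ∏ i ∈ Finset.range p,
            scaleL (ζ ^ i) ((wAt D hM x : FBar (N₀ * p)) : LaurentSeries Qb))

include hp hE in
/-- `(Nφ z)(q^p) = ∏_b z(ζ^b q)`. -/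
theorem qExpand_nphi (z : FBar (N₀ * p)) :
    qExpand Qb p ((nphi D hM z : FBar (N₀ * p)) : LaurentSeries Qb) =
      ∏ i ∈ Finset.range p, scaleL (ζ ^ i) (z : LaurentSeries Qb) := by
  by_cases hz : z = 0
  · subst hz
    have h0 : nphi D hM (0 : FBar (N₀ * p)) = 0 := by
      unfold nphi
      rw [map_zero, div_zero]
    rw [h0]
    have h1 : (((0 : FBar (N₀ * p)) : FBar (N₀ * p)) : LaurentSeries Qb) = 0 := rfl
    rw [h1, map_zero]
    symm
    exact Finset.prod_eq_zero (Finset.mem_range.mpr hp.pos) (map_zero _)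
  · have hw := wAt_ne_zero D hM hz
    have hwc : ((wAt D hM z : FBar (N₀ * p)) : LaurentSeries Qb) ≠ 0 := fun h =>
      hw (Subtype.ext h)
    have h1 := hE (wAt D hM z)
    rw [wAt_wAt] at h1
    have h2 : ((nphi D hM z : FBar (N₀ * p)) : LaurentSeries Qb) =
        ((normAlong (heckeAlphaBar Qb N₀ p) (wAt D hM z) : FBar N₀) : LaurentSeries Qb) /
          ((wAt D hM z : FBar (N₀ * p)) : LaurentSeries Qb) := by
      unfold nphi
      rw [IntermediateField.coe_div, coe_heckeAlphaBar]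
    rw [h2, map_div₀, h1, mul_div_cancel_left₀]
    exact (map_ne_zero_iff _ (qExpand_injective (R := Qb) p)).mpr hwc

include hp hpN in
theorem nphi_ne_zero {z : FBar (N₀ * p)} (hz : z ≠ 0) : nphi D hM z ≠ 0 := by
  unfold nphi
  refine div_ne_zero ?_ (wAt_ne_zero D hM hz)
  exact (map_ne_zero_iff _ (heckeAlphaBar Qb N₀ p).toRingHom.injective).mpr
    (normAlong_ne_zero' hp hpN (wAt_ne_zero D hM hz))

theorem nphi_mul_wAt {z : FBar (N₀ * p)} (hz : z ≠ 0) :
    nphi D hM z * wAt D hM z =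
      heckeAlphaBar Qb N₀ p (normAlong (heckeAlphaBar Qb N₀ p) (wAt D hM z)) := by
  unfold nphi
  exact div_mul_cancel₀ _ (wAt_ne_zero D hM hz)

include hp hpN in
/-- **the double step**: a new function is a constant times a `p`-th power times `Nφ (Nφ g)`. -/
theorem exists_eq_mul_nphi_nphi {g : FBar (N₀ * p)} (hg : g ≠ 0) (hnew : IsNewFn D hM g) :
    ∃ (H : FBar (N₀ * p)) (c₀ : Qb), c₀ ≠ 0 ∧ H ≠ 0 ∧
      g = algebraMap Qb (FBar (N₀ * p)) c₀ * H ^ p * nphi D hM (nphi D hM g) := by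
  obtain ⟨⟨a, c, hc, hn₁⟩, ⟨a', c', hc', hn₂⟩⟩ := hnew
  set α := heckeAlphaBar Qb N₀ p with hα
  set w := wAt D hM with hw
  set G₁ := nphi D hM g with hG₁
  set G₂ := nphi D hM G₁ with hG₂
  have hG₁0 : G₁ ≠ 0 := nphi_ne_zero D hM hp hpN hg
  have hG₂0 : G₂ ≠ 0 := nphi_ne_zero D hM hp hpN hG₁0
  have ha0 : a ≠ 0 := by
    rintro rfl
    have := normAlong_ne_zero' hp hpN hg
    rw [hn₁, zero_pow hp.ne_zero, mul_zero] at this
    exact this rfl
  have ha'0 : a' ≠ 0 := by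
    rintro rfl
    have := normAlong_ne_zero' hp hpN (wAt_ne_zero D hM hg)
    rw [hn₂, zero_pow hp.ne_zero, mul_zero] at this
    exact this rfl
  -- `G₁ * w g = c' A'^p`
  have e1 : G₁ * w g = algebraMap Qb (FBar (N₀ * p)) c' * (α a') ^ p := by
    rw [hG₁, nphi_mul_wAt D hM hg, hn₂, map_mul, map_pow, AlgHom.commutes]
  -- `w G₁ * g = c' (w A')^p`
  have e2 : w G₁ * g = algebraMap Qb (FBar (N₀ * p)) c' * (w (α a')) ^ p := by
    have := congrArg w e1
    rw [map_mul, map_mul, map_pow, hw, wAt_wAt, AlgEquiv.commutes] at this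
    exact this
  -- `G₂ * w G₁ = α (Norm (w G₁))`
  have e3 : G₂ * w G₁ = α (normAlong α (w G₁)) := nphi_mul_wAt D hM hG₁0
  -- norms
  have e4 : normAlong α (w G₁) * normAlong α g =
      algebraMap Qb (FBar N₀) (c' ^ (p + 1)) * (normAlong α (w (α a'))) ^ p := by
    rw [← map_mul, e2, map_mul, map_pow, normAlong_const hp hpN]
  have e5 : α (normAlong α (w G₁)) * (algebraMap Qb (FBar (N₀ * p)) c * (α a) ^ p) =
      (algebraMap Qb (FBar (N₀ * p)) c') ^ (p + 1) * (α (normAlong α (w (α a')))) ^ p := by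
    have := congrArg α e4
    simpa only [map_mul, map_pow, hn₁, AlgHom.commutes] using this
  set A₁ := α a with hA₁
  set B := w (α a') with hB
  set NB := α (normAlong α B) with hNB
  set cF := algebraMap Qb (FBar (N₀ * p)) c with hcF'
  set dF := algebraMap Qb (FBar (N₀ * p)) c' with hdF'
  have hA₁0 : A₁ ≠ 0 := (map_ne_zero_iff _ α.toRingHom.injective).mpr ha0
  have hB0 : B ≠ 0 := wAt_ne_zero D hM ((map_ne_zero_iff _ α.toRingHom.injective).mpr ha'0)
  have hNB0 : NB ≠ 0 := (map_ne_zero_iff _ α.toRingHom.injective).mpr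
    (normAlong_ne_zero' hp hpN hB0)
  have hcF : cF ≠ 0 :=
    (map_ne_zero_iff _ (algebraMap Qb (FBar (N₀ * p))).injective).mpr hc
  have hdF : dF ≠ 0 :=
    (map_ne_zero_iff _ (algebraMap Qb (FBar (N₀ * p))).injective).mpr hc'
  refine ⟨A₁ * B / NB, c / c' ^ p, div_ne_zero hc (pow_ne_zero _ hc'),
    div_ne_zero (mul_ne_zero hA₁0 hB0) hNB0, ?_⟩
  -- the identity
  have key : dF * (G₂ * B ^ p * (cF * A₁ ^ p)) = dF * (dF ^ p * NB ^ p * g) := by
    linear_combination (-(G₂ * (cF * A₁ ^ p))) * e2 + (g * (cF * A₁ ^ p)) * e3 + g * e5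
  have key' : G₂ * B ^ p * (cF * A₁ ^ p) = dF ^ p * NB ^ p * g := mul_left_cancel₀ hdF key
  rw [map_div₀, map_pow, div_pow, mul_pow]
  have hdFp : dF ^ p ≠ 0 := pow_ne_zero _ hdF
  have hNBp : NB ^ p ≠ 0 := pow_ne_zero _ hNB0
  rw [div_mul_div_comm, div_mul_eq_mul_div, eq_div_iff (mul_ne_zero hdFp hNBp)]
  linear_combination (-1 : FBar (N₀ * p)) * key'

end Nphi

end Fermat.Agent.BadRed.PNew
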