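import Fermat.Agent.Lib.BadRed.PNew.LevelOne
import Fermat.Agent.Lib.BadRed.PNew.WSplit
import Fermat.Agent.Lib.BadRed.PNew.Cyclo
import Fermat.Agent.Lib.BadRed.Nodal.P.Defs
import Fermat.Agent.Lib.BadRed.Bridge.Assembly
import Fermat.Agent.Lib.BadRed.Bridge.PullSplit

set_option autoImplicit false
set_option linter.style.haveILetI false
set_option linter.unusedSectionVars false
set_option linter.unusedVariables false
set_option synthInstance.maxHeartbeats 400000
set_option maxHeartbeats 1000000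

/-!
# S33-new, seat P-BR (e) (helper46): the bridge `(W1) + (COV) ⟹ (G1) ∧ (G2)` for `Sp`

Level `N₀ p` (`p ∤ N₀`), `D` the Atkin–Lehner datum with `D.Q = p`, `A` a place of `ℚ̄` over `p`,
`Sp = spSub N₀ p D hM A` (`SpDef.lean`): the `p`-new classes with a Kummer generator of `p`-power
exponent reducing to `1` for both Gauss valuations.

* `W1Statement N₀ p D hM A` : the function statement (W1) (`w1_split` of `PNew/WMain.lean`):
  a new function which reduces to `1` is a constant times a `p`-th power times a unit `≡ 1 mod p²`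
  of the Gauss ring.
* `CovInstStatement D A p lam` : the modular instance of (COV) (`PNew/CovModular.lean`).
* `smul_eq_nsmul_of_gaussSplit` : the class statement at a level `M = D.Q D.R`.
* `splitG2_spSub` : (G2) for `Sp`.
* `pbr_of_parts` : `∃ Sp, SplitG1 ∧ SplitG2`, the body of `S33.PBRTarget`.
-/

noncomputable section

namespace Fermat.Agent.BadRed.PNew

open ModularCurve AlgebraicCurve Fermat.Agent.F3 Fermat.Agent.F3G Fermat.Agent.GaussInt
  Fermat.Agent.AtkinLehner Fermat.Agent.F3I2 Fermat.Agent.F3Deg Fermat.Agent.F3DegW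
  Fermat.Agent.F3DegP Fermat.Agent.BadRed Fermat.Agent.BadRed.PullAux

local notation "Qb" => AlgebraicClosure ℚ

/-- **split, Gauss form**: `g` is a constant times a `p`-th power times a unit `≡ 1 mod p²` of the
Gauss ring of `F_M` at `A`. -/
def GaussSplit {M : ℕ} (A : ValuationSubring Qb) (p : ℕ) (g : FBar M) : Prop :=
  ∃ (H : FBar M) (c : Qb), H ≠ 0 ∧ c ≠ 0 ∧
    (((g / (algebraMap Qb (FBar M) c * H ^ p) - 1) / algebraMap Qb (FBar M) ((p : Qb) ^ 2) :
        FBar M) : LaurentSeries Qb) ∈ gaussSub A (modularFunctionFieldBar M)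

/-- **(W1)**, the function statement consumed by the bridge: a new function with `p ∣ div g`
which reduces to `1` for both Gauss valuations is split for `v_∞`. -/
def W1Statement (N₀ p : ℕ) [NeZero N₀] [NeZero p] (D : ALData) (hM : N₀ * p = D.Q * D.R)
    (A : ValuationSubring Qb) : Prop :=
  ∀ g : FBar (N₀ * p), g ≠ 0 → (∀ P : Place Qb (FBar (N₀ * p)), (p : ℤ) ∣ P.ord g) →
    IsNewFn D hM g →
    RedAt A (AlgEquiv.refl : FBar (N₀ * p) ≃ₐ[Qb] FBar (N₀ * p)) g 1 →
    RedAt A (wAt D hM) g 1 →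
      GaussSplit A p g

/-- **(COV), modular instance**: a modular nodal package at `A` with the covering statement for
the exponent `p` and the cyclotomic uniformiser `lam`. -/
def CovInstStatement (D : ALData) (A : ValuationSubring Qb) (p : ℕ) (lam : Qb) : Prop :=
  ∃ MN : ModularNodal D A, PTor.PCovStatement MN.N p lam

section Core

variable {M : ℕ} [NeZero M] (D : ALData) (hM : M = D.Q * D.R) (A : ValuationSubring Qb)

/-- the class statement: inertia acts by `e` on the class of a divisor `E` with `p E = div g`,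
`g` split for both Gauss valuations. -/
theorem smul_eq_nsmul_of_gaussSplit {p : ℕ} (hp : p ≠ 0) {lam : Qb}
    (hC : CovInstStatement D A p lam)
    {σ : Qb ≃ₐ[ℚ] Qb} (hσ : σ ∈ A.inertiaSubgroupIn ℚ) (e : ℕ)
    (hlam : (σ (lam ^ p) / lam ^ p - (e : Qb)) / lam ∈ A)
    {E : Divisor.degZero (K := Qb) (F := FBar M)} {g : FBar M} (hE : IsRootDiv p g E)
    (hs₁ : GaussSplit A p g) (hs₂ : GaussSplit A p (wAt D hM g)) :
    σ • (Pic0.mk E : JZero M) = e • (Pic0.mk E : JZero M) := by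
  subst hM
  rw [wAt_eq_rfl] at hs₂
  obtain ⟨MN, hcov⟩ := hC
  set t := arithmeticGalois (modularFunctionFieldFull (D.Q * D.R)) σ with ht
  have hg0 : g ≠ 0 := hE.1
  have hdiv : ∀ P : Place Qb (FBar (D.Q * D.R)), (p : ℤ) ∣ P.ord g :=
    fun P => ⟨_, (hE.2 P).symm⟩
  -- the split condition of the nodal package
  have hsplit : PTor.IsSplitFn MN.N p g := by
    refine ⟨?_, ?_⟩
    · obtain ⟨H, c, hH, hc, h⟩ := hs₁
      exact ⟨H, c, hH, hc, (MN.mem₁_iff _).mpr h⟩
    · obtain ⟨H, c, hH, hc, h⟩ := hs₂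
      refine ⟨atkinLehner D H, c, ?_, hc, ?_⟩
      · exact (map_ne_zero_iff _ (atkinLehner D).injective).mpr hH
      · rw [MN.mem₂_iff, MN.mem₁_iff]
        have e1 : atkinLehner D ((g / (algebraMap Qb (FBar (D.Q * D.R)) c *
            atkinLehner D H ^ p) - 1) / algebraMap Qb (FBar (D.Q * D.R)) ((p : Qb) ^ 2)) =
            (atkinLehner D g / (algebraMap Qb (FBar (D.Q * D.R)) c * H ^ p) - 1) /
              algebraMap Qb (FBar (D.Q * D.R)) ((p : Qb) ^ 2) := by
          rw [map_div₀, map_sub, map_div₀, map_mul, map_pow, atkinLehner_atkinLehner, map_one,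
            AlgEquiv.commutes, AlgEquiv.commutes]
        rw [e1]
        exact h
  have hlam' : (SemilinearAut.baseAut t (lam ^ p) / lam ^ p - (e : Qb)) / lam ∈ MN.N.S₁.A := by
    rw [MN.A_eq]
    exact hlam
  obtain ⟨u, c, hc, hu⟩ := hcov t (MN.inertial σ hσ) e hlam' g hg0 hdiv hsplit
  -- the class statement
  have htg : t • g ≠ 0 := by simpa using hg0
  have hcF : algebraMap Qb (FBar (D.Q * D.R)) c ≠ 0 := by simpa using hc
  have hu0 : u ≠ 0 := by
    rintro rfl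
    rw [zero_pow hp, zero_mul] at hu
    exact mul_ne_zero hcF htg hu.symm
  have hE₁ : ∀ v, ((p : ℕ) : ℤ) *
      (SemilinearAut.degZeroSMulHom t E : Divisor Qb (FBar (D.Q * D.R))) v = v.ord (t • g) :=
    fun v => mul_smul_divisor_apply_eq_ord t _ hE.2 v
  have e1 : σ • (Pic0.mk E : JZero (D.Q * D.R)) =
      Pic0.mk (SemilinearAut.degZeroSMulHom t E) :=
    SemilinearAut.pic0_smul_mk t E
  have hcinv : algebraMap Qb (FBar (D.Q * D.R)) c⁻¹ ≠ 0 := by
    simpa using hc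
  have h0 : ∀ v : Place Qb (FBar (D.Q * D.R)),
      ((p : ℕ) : ℤ) * ((0 : Divisor.degZero (K := Qb) (F := FBar (D.Q * D.R))) :
        Divisor Qb (FBar (D.Q * D.R))) v = v.ord (algebraMap Qb (FBar (D.Q * D.R)) c⁻¹) := by
    intro v
    rw [rootClass_ord_algebraMap v (inv_ne_zero hc)]
    simp
  have hrel : (u⁻¹) ^ p * (t • g) = algebraMap Qb (FBar (D.Q * D.R)) c⁻¹ * g ^ e := by
    have hup : u ^ p ≠ 0 := pow_ne_zero _ hu0
    rw [map_inv₀, inv_pow]
    field_simp
    rw [hu]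
    ring
  have key := mk_sub_add_nsmul_eq_zero_of_pow p hp e 0
    (SemilinearAut.degZeroSMulHom t E) E hcinv htg hg0 h0 hE₁ hE.2 hrel
  rw [e1]
  have h3 : (Pic0.mk (0 : Divisor.degZero (K := Qb) (F := FBar (D.Q * D.R))) :
      Pic0 Qb (FBar (D.Q * D.R))) = 0 := rfl
  rw [h3, zero_sub] at key
  have h4 : e • (Pic0.mk E : Pic0 Qb (FBar (D.Q * D.R))) -
      Pic0.mk (SemilinearAut.degZeroSMulHom t E) = 0 := by
    rw [← key]
    abel
  exact (sub_eq_zero.mp h4).symm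

end Core

section G2

variable {N₀ p : ℕ} [NeZero N₀] [NeZero p] (D : ALData) (hM : N₀ * p = D.Q * D.R)
  (A : ValuationSubring Qb)

/-- a `p`-new class with a Kummer generator `g` of exponent `p`: `g` is a new function. -/
theorem isNewFn_of_isRootDiv {E : Divisor.degZero (K := Qb) (F := FBar (N₀ * p))}
    {g : FBar (N₀ * p)} (hp : p ≠ 0) (hE : IsRootDiv p g E)
    (h1 : pushAlpha N₀ p (Pic0.mk E) = 0)
    (h2 : pushAlpha N₀ p (pushWAt D hM (Pic0.mk E)) = 0) : IsNewFn D hM g := by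
  refine ⟨exists_norm_eq_of_pushAlpha_eq_zero hp hE h1, ?_⟩
  obtain ⟨E', hE', hR'⟩ := isRootDiv_pushWAt D hM hE
  rw [hE'] at h2
  exact exists_norm_eq_of_pushAlpha_eq_zero hp hR' h2

/-- **(G2)** for `Sp`, from (W1) and the modular instance of (COV) for a primitive `p`-th root of
unity `ζ`, `lam = ζ - 1`. -/
theorem splitG2_spSub (hp : p.Prime) (hA : A.LiesOverPrime p)
    (hW : W1Statement N₀ p D hM A)
    {ζ : Qb} (hζ : IsPrimitiveRoot ζ p) (hC : CovInstStatement D A p (ζ - 1)) :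
    haveI : NeZero (N₀ * p) := ⟨Nat.mul_ne_zero (NeZero.ne N₀) (NeZero.ne p)⟩
    SplitG2 p (N₀ * p) A (spSub N₀ p D hM A) := by
  haveI : NeZero (N₀ * p) := ⟨Nat.mul_ne_zero (NeZero.ne N₀) (NeZero.ne p)⟩
  intro x hxS hx σ hσ e he
  rw [mem_spSub_iff] at hxS
  obtain ⟨h1, h2, n, hn⟩ := hxS
  obtain ⟨E, g, hR, rfl, hr1, hr2⟩ := hasRedOneGen_one D hM A hp hA hn hx
  rw [pow_one] at hR
  have hdiv : ∀ P : Place Qb (FBar (N₀ * p)), (p : ℤ) ∣ P.ord g :=
    fun P => ⟨_, (hR.2 P).symm⟩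
  have hnew : IsNewFn D hM g := isNewFn_of_isRootDiv D hM hp.ne_zero hR h1 h2
  have hnew' : IsNewFn D hM (wAt D hM g) := ⟨hnew.2, by rw [wAt_wAt]; exact hnew.1⟩
  have hs₁ : GaussSplit A p g := hW g hR.1 hdiv hnew hr1 hr2
  have hwg0 : wAt D hM g ≠ 0 := (map_ne_zero_iff _ (wAt D hM).injective).mpr hR.1
  have hdiv' : ∀ P : Place Qb (FBar (N₀ * p)), (p : ℤ) ∣ P.ord (wAt D hM g) := by
    obtain ⟨E', -, hR'⟩ := isRootDiv_pushWAt D hM hR
    exact fun P => ⟨_, (hR'.2 P).symm⟩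
  have hr1' : RedAt A (AlgEquiv.refl : FBar (N₀ * p) ≃ₐ[Qb] FBar (N₀ * p)) (wAt D hM g) 1 := hr2
  have hr2' : RedAt A (wAt D hM) (wAt D hM g) 1 := by
    unfold RedAt
    rw [wAt_wAt]
    exact hr1
  have hs₂ : GaussSplit A p (wAt D hM g) := hW _ hwg0 hdiv' hnew' hr1' hr2'
  have hlam : (σ ((ζ - 1) ^ p) / (ζ - 1) ^ p - (e : Qb)) / (ζ - 1) ∈ A :=
    cyc_twist_mem_of_map A hp hζ σ.toRingEquiv e (he ζ (hζ.pow_eq_one))
  exact smul_eq_nsmul_of_gaussSplit D hM A hp.ne_zero hC hσ e hlam hR hs₁ hs₂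

/-- **P-BR**: the body of `S33.PBRTarget` from (W1) and the modular instance of (COV). -/
theorem pbr_of_parts (hp : p.Prime) (hQ : D.Q = p) (hA : A.LiesOverPrime p)
    (hW : W1Statement N₀ p D hM A)
    (hC : ∀ ζ : Qb, IsPrimitiveRoot ζ p → CovInstStatement D A p (ζ - 1)) :
    ∃ Sp : AddSubgroup (JZero (N₀ * p)), SplitG1 p N₀ D hM A Sp ∧ SplitG2 p (N₀ * p) A Sp := by
  haveI : NeZero (N₀ * p) := ⟨Nat.mul_ne_zero (NeZero.ne N₀) (NeZero.ne p)⟩
  have hQp : D.Q.Prime := hQ ▸ hp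
  have hAQ : A.LiesOverPrime D.Q := hQ ▸ hA
  obtain ⟨ζ, hζ⟩ : ∃ ζ : Qb, IsPrimitiveRoot ζ p := by
    haveI : NeZero ((p : ℕ) : Qb) := ⟨by exact_mod_cast hp.ne_zero⟩
    exact HasEnoughRootsOfUnity.exists_primitiveRoot Qb p
  refine ⟨spSub N₀ p D hM A, ?_, splitG2_spSub D hM A hp hA hW hζ (hC ζ hζ)⟩
  intro n x hx h1 h2 τ hτ
  exact smul_sub_mem_spSub hQp hAQ hx h1 h2 hτ

end G2

end Fermat.Agent.BadRed.PNew
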