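import Mathlib
import Fermat.Agent.Lib.BadRed.PNew.Cyclo
import Fermat.Agent.Lib.BadRed.Nodal.P.Defs

set_option autoImplicit false

/-!
# S33-new, seat P-BR (helper46): `IsCycloUnif` for `lam = ζ - 1`

For a nodal setup `N` over `K`, a prime `p` which is not a unit of the valuation ring `N.S₁.A`
and a primitive `p`-th root of unity `ζ ∈ K`: `PTor.IsCycloUnif N p (ζ - 1)`.
-/

namespace Fermat.Agent.BadRed.PNew

variable {K F k Fk₁ Fk₂ : Type*} [Field K] [Field F] [Algebra K F]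
  [Field k] [Field Fk₁] [Algebra k Fk₁] [Field Fk₂] [Algebra k Fk₂] {ι : Type*}

/-- `lam = ζ - 1` is a cyclotomic uniformiser. -/
theorem isCycloUnif_sub_one (N : NodalSetup K F k Fk₁ Fk₂ ι) {p : ℕ} (hp : p.Prime) {ζ : K}
    (hζ : IsPrimitiveRoot ζ p) (hp0 : (p : K) ≠ 0) (hpA : ((p : K))⁻¹ ∉ N.S₁.A) :
    PTor.IsCycloUnif N p (ζ - 1) where
  prime := hp
  ne_zero := sub_ne_zero.mpr (cyc_ne_one hp hζ)
  mem := cyc_lam_mem N.S₁.A hp hζ
  inv_not_mem := cyc_lam_inv_not_mem N.S₁.A hp hζ hpA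
  kappa_mem := cyc_kappa_mem N.S₁.A hp hζ
  kappa_inv_mem := cyc_kappa_inv_mem N.S₁.A hp hζ
  p_ne_zero := hp0

end Fermat.Agent.BadRed.PNew
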