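import Fermat.Agent.Lib.BadRed.PNew.CovModular
import Fermat.Agent.Lib.BadRed.PNew.CycloUnif

set_option autoImplicit false
set_option linter.style.haveILetI false
set_option linter.unusedSectionVars false
set_option linter.unusedVariables false
set_option synthInstance.maxHeartbeats 400000
set_option maxHeartbeats 1000000

/-!
# S33-new: the modular instance of `(COV)` for the cyclotomic uniformiser `ζ - 1`

`covInst_all` : for an Atkin-Lehner datum `D` with `D.Q = p` prime and `AuxOK D`, a place `A` of
`ℚ̄` over `p` and a primitive `p`-th root of unity `ζ`: a modular nodal package `MN` at `A` with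
`PTor.PCovStatement MN.N p (ζ - 1)`  (this is `PNew.CovInstStatement D A p (ζ - 1)` unfolded).
-/

noncomputable section

namespace Fermat.Agent.BadRed

open ModularCurve AlgebraicCurve Fermat.Agent.AtkinLehner Fermat.Agent.Deuring Fermat.Agent.RR

local notation "Qb" => AlgebraicClosure ℚ

/-- **the modular instance of (COV)** at the cyclotomic uniformiser `ζ - 1`. -/
theorem covInst_all (p : ℕ) (D : ALData) (hp : p.Prime) (hQ : D.Q = p)
    (haux : AuxLevel.AuxOK D) (A : ValuationSubring Qb) (hA : A.LiesOverPrime p)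
    (ζ : Qb) (hζ : IsPrimitiveRoot ζ p) :
    ∃ MN : ModularNodal D A, PTor.PCovStatement MN.N p (ζ - 1) := by
  subst hQ
  obtain ⟨M, -, hcov⟩ := exists_modularNodal_pCov D hp haux A hA
  have hp0 : ((D.Q : ℕ) : Qb) ≠ 0 := Nat.cast_ne_zero.mpr hp.ne_zero
  refine ⟨M, hcov (ζ - 1) (PNew.isCycloUnif_sub_one M.N hp hζ hp0 ?_)⟩
  rw [M.A_eq]
  exact (A.mem_nonunits_iff_or.mp hA).resolve_left hp0

end Fermat.Agent.BadRed
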