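import Fermat.Agent.Lib.BadRed.Final.Main
import Fermat.Agent.Lib.BadRed.Nodal.P.CovMain

set_option autoImplicit false
set_option linter.style.haveILetI false
set_option linter.unusedSectionVars false
set_option linter.unusedVariables false
set_option synthInstance.maxHeartbeats 400000
set_option maxHeartbeats 1000000

/-!
# S33-new: `(COV)` for the MODULAR nodal package at the residue characteristic `p = D.Q`

* `fw_nonempty_nodalNS` : the modular nodal package `fwModularNodal` has a `NodalNS` package;
* `fw_pCov` : `PCovStatement (fwModularNodal ..).N D.Q lam` for every cyclotomic uniformiser `lam`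
  (`PTor.IsCycloUnif`);
* `exists_modularNodal_pCov` : for every Atkin-Lehner datum `D` with `D.Q` prime and `AuxOK D`, and
  every place `A` of `ℚ̄` over `D.Q`: the modular nodal package with its toric key statement AND
  its `(COV)` statement at `p = D.Q`.
-/

noncomputable section

namespace Fermat.Agent.BadRed

open IntermediateField ModularCurve AlgebraicCurve Fermat.Agent.F3 Fermat.Agent.F3G
  Fermat.Agent.GaussInt
  Fermat.Agent.AtkinLehner Fermat.Agent.Deuring Fermat.Agent.RR Fermat.Agent.BadRed.SeedNode
  Fermat.Agent.BadRed.SeedPoles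

local notation "Qb" => AlgebraicClosure ℚ

attribute [local instance] fwFintype

section

variable (D : ALData) [NeZero D.Q] [NeZero D.R] [NeZero (D.Q * D.R)]
  (A : ValuationSubring Qb) (hq : D.Q.Prime) (hA : A.LiesOverPrime D.Q) (hqR : ¬ D.Q ∣ D.R)
  (S : ValSetup Qb (modularFunctionFieldBar (D.Q * D.R)) (IsLocalRing.ResidueField A)
    (modularFunctionFieldFullC (IsLocalRing.ResidueField A) D.R))
  (hS : IsGaussSetup (D.Q * D.R) D.R A S) (hL : HasLattice S)
  [Fact D.Q.Prime] [CharP (IsLocalRing.ResidueField A) D.Q]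
  [PerfectRing (IsLocalRing.ResidueField A) D.Q]

/-- the modular nodal package has a `NodalNS` package. -/
theorem fw_nonempty_nodalNS (haux : AuxLevelOK D.Q D.R) (hsep : FwSep D A S) :
    Nonempty (NodalNS (fwModularNodal D A hq hA hqR S hS hL haux hsep).N
      (genusFF Qb (modularFunctionFieldBar (D.Q * D.R)))) := by
  haveI := infinite_residue A
  haveI := Fermat.Agent.GaussInt.isAlgClosed_residue A
  haveI := fw_nonempty D A hq hA S hS
  exact NodalSetup.nonempty_nodalNS_of_lift
    (N := (fwSeed D A hq hA hqR S hS hL haux hsep).nodalSetup)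
    (fwSeed D A hq hA hqR S hS hL haux hsep).nodalSetup_genusRel
    (fwSeed D A hq hA hqR S hS hL haux hsep).D₀ (fwSeed D A hq hA hqR S hS hL haux hsep).R₁
    (fwSeed D A hq hA hqR S hS hL haux hsep).R₂
    (fwSeed D A hq hA hqR S hS hL haux hsep).R₁_pos
    (fwSeed D A hq hA hqR S hS hL haux hsep).R₂_pos
    (fwSeed D A hq hA hqR S hS hL haux hsep).R₁_node
    (fwSeed D A hq hA hqR S hS hL haux hsep).R₂_node
    (fwSeed D A hq hA hqR S hS hL haux hsep).nodalSetup_hasLift

/-- **(COV) for the modular nodal package** at the residue characteristic `p = D.Q`. -/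
theorem fw_pCov (haux : AuxLevelOK D.Q D.R) (hsep : FwSep D A S) (lam : Qb)
    (h : PTor.IsCycloUnif (fwModularNodal D A hq hA hqR S hS hL haux hsep).N D.Q lam) :
    PTor.PCovStatement (fwModularNodal D A hq hA hqR S hS hL haux hsep).N D.Q lam := by
  haveI := infinite_residue A
  exact PCov.pCovMain_of_nonempty _ (fw_nonempty_nodalNS D A hq hA hqR S hS hL haux hsep) D.Q lam h
    (fun c => IsAlgClosed.exists_pow_nat_eq c hq.pos)
    (fwModularNodal D A hq hA hqR S hS hL haux hsep).genusRel

end

/-- **the modular nodal package exists**, with its toric key statement and its `(COV)` statement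
at the residue characteristic. -/
theorem exists_modularNodal_pCov (D : ALData) (hQ : D.Q.Prime) (haux : AuxLevel.AuxOK D)
    (A : ValuationSubring Qb) (hA : A.LiesOverPrime D.Q) :
    ∃ M : ModularNodal D A, AbstractToricKeyStatement M.N ∧
      ∀ lam : Qb, PTor.IsCycloUnif M.N D.Q lam → PTor.PCovStatement M.N D.Q lam := by
  haveI : NeZero D.Q := ⟨hQ.ne_zero⟩
  haveI : NeZero D.R := ⟨D.hR.ne'⟩
  haveI : NeZero (D.Q * D.R) := ⟨mul_ne_zero hQ.ne_zero D.hR.ne'⟩
  haveI : Fact D.Q.Prime := ⟨hQ⟩
  haveI : CharP (IsLocalRing.ResidueField A) D.Q :=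
    Fermat.Agent.FrobTrace.charP_residueField A hA
  haveI : IsAlgClosed (IsLocalRing.ResidueField A) := Fermat.Agent.GaussInt.isAlgClosed_residue A
  haveI : PerfectRing (IsLocalRing.ResidueField A) D.Q := inferInstance
  have hqR := ALData_not_dvd D hQ
  have hS := isGaussSetup_gaussSetupBad D hQ hqR A hA
  have hL := hasLattice_gaussSetupBad D hQ hqR A hA
  have haux' : AuxLevelOK D.Q D.R := haux
  have hsep := fw_sep D A hQ hA hqR _ hS haux'
  exact ⟨fwModularNodal D A hQ hA hqR _ hS hL haux' hsep,
    fw_abstractToricKey D A hQ hA hqR _ hS hL haux' hsep,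
    fun lam h => fw_pCov D A hQ hA hqR _ hS hL haux' hsep lam h⟩

end Fermat.Agent.BadRed
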