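import Fermat.Agent.Lib.BadRed.PNew.SpDef
import Fermat.Agent.Lib.Kronecker.KroneckerAux

set_option autoImplicit false
set_option linter.style.haveILetI false
set_option linter.unusedSectionVars false

/-!
# S33-new, seat P-BR (b) (helper94): `K'` is level-independent

`hasRedOneGen_one` : a class `x` killed by `p` which has a Kummer generator of exponent `p ^ n`
with reduction `1` for both Gauss valuations (`A` a place over `p`) has such a generator of
exponent `p`.

Proof.  `p ^ n E = div g`, `p E = div y`; then `g = c y ^ (p ^ (n - 1))`, `c = d ^ (p ^ (n - 1))`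
(`ℚ̄` is algebraically closed), so `g = g₁ ^ (p ^ (n - 1))` with `g₁ = d y`, `div g₁ = p E`.  If
`g₁ ^ (p ^ k)` has reduction `1` for a valuation `v_∞ ∘ ψ`, then so has `g₁`: scale `c g₁` to a
unit with reduction `r` (`exists_scale_redAt`); `c ^ (p ^ k)` is then a unit of `A`, hence `c`
is, `g₁` reduces to `r₁` with `r₁ ^ (p ^ k) = 1`, and Frobenius is injective on `k((q))`.
-/

noncomputable section

namespace Fermat.Agent.BadRed.PNew

open ModularCurve AlgebraicCurve Fermat.Agent.F3 Fermat.Agent.F3G Fermat.Agent.GaussInt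
  Fermat.Agent.AtkinLehner Fermat.Agent.F3I2 Fermat.Agent.F3Deg Fermat.Agent.F3DegW
  Fermat.Agent.F3DegP Fermat.Agent.BadRed

local notation "Qb" => AlgebraicClosure ℚ

section Roots

variable {M : ℕ} {A : ValuationSubring Qb}

/-- the coercion to Laurent series of a constant. -/
theorem levelOne_coe_algebraMap (ψ : FBar M ≃ₐ[Qb] FBar M) (c : Qb) :
    ((ψ (algebraMap Qb (FBar M) c) : FBar M) : LaurentSeries Qb) =
      algebraMap Qb (LaurentSeries Qb) c := by
  rw [AlgEquiv.commutes]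
  rfl

/-- a constant with a reduction lies in `A`. -/
theorem levelOne_mem_of_redAt {ψ : FBar M ≃ₐ[Qb] FBar M} {c : Qb}
    {r : LaurentSeries (IsLocalRing.ResidueField A)}
    (h : RedAt A ψ (algebraMap Qb (FBar M) c) r) : c ∈ A := by
  have h1 := h.1
  rw [levelOne_coe_algebraMap] at h1
  exact algebraMap_mem_gaussSub_iff.mp h1

/-- `c ^ m ∈ A` and `(c ^ m)⁻¹ ∈ A` imply `c ∈ A` and `c⁻¹ ∈ A`. -/
theorem levelOne_mem_of_pow_mem {c : Qb} {m : ℕ} (hm : m ≠ 0) (h1 : c ^ m ∈ A) :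
    c ∈ A := by
  rcases A.mem_or_inv_mem c with h | h
  · exact h
  · by_cases hc0 : c = 0
    · rw [hc0]
      exact A.zero_mem
    · have e : c = c ^ m * (c⁻¹) ^ (m - 1) := by
        obtain ⟨k, rfl⟩ := Nat.exists_eq_succ_of_ne_zero hm
        rw [Nat.succ_sub_one, pow_succ, inv_pow]
        field_simp
      rw [e]
      exact A.mul_mem _ _ h1 (pow_mem h _)

/-- Frobenius is injective on `k((q))`: `r ^ (p ^ k) = 1 ⟹ r = 1`. -/
theorem levelOne_eq_one_of_pow {k' : Type*} [Field k'] {p : ℕ} (hp : p.Prime) [CharP k' p]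
    (k : ℕ) {r : LaurentSeries k'} (h : r ^ p ^ k = 1) : r = 1 := by
  haveI : Fact p.Prime := ⟨hp⟩
  haveI : CharP (LaurentSeries k') p :=
    charP_of_injective_algebraMap (algebraMap k' (LaurentSeries k')).injective p
  have h1 : (r - 1) ^ p ^ k = 0 := by
    rw [sub_pow_char_pow, h, one_pow, sub_self]
  exact sub_eq_zero.mp (pow_eq_zero_iff (pow_ne_zero k hp.ne_zero) |>.mp h1)

/-- **root extraction for reductions**: if `y ^ (p ^ k)` has reduction `1` for the valuation
`v_∞ ∘ ψ` at a place over `p`, then so has `y`. -/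
theorem redAt_one_of_pow [NeZero M] {p : ℕ} (hp : p.Prime) (hA : A.LiesOverPrime p)
    (ψ : FBar M ≃ₐ[Qb] FBar M) {y : FBar M} (k : ℕ) (h : RedAt A ψ (y ^ p ^ k) 1) :
    RedAt A ψ y 1 := by
  haveI : CharP (IsLocalRing.ResidueField A) p :=
    Fermat.Agent.Kronecker.charP_residueField_of_liesOverPrime A p hp hA
  have hm : p ^ k ≠ 0 := pow_ne_zero k hp.ne_zero
  have hy : y ≠ 0 := by
    have h0 := h.ne_zero one_ne_zero
    exact fun h' => h0 (by rw [h', zero_pow hm])
  obtain ⟨c, hc0, r, hr0, hcy⟩ := exists_scale_redAt hp hA ψ hy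
  have hca : algebraMap Qb (FBar M) c ≠ 0 := by simpa using hc0
  -- `c ^ (p ^ k)` has the nonzero reduction `r ^ (p ^ k)`
  have hpow := hcy.pow (p ^ k)
  have hrm : r ^ p ^ k ≠ 0 := pow_ne_zero _ hr0
  have hconst : RedAt A ψ (algebraMap Qb (FBar M) (c ^ p ^ k)) (r ^ p ^ k) := by
    have h3 := hpow.div h one_ne_zero
    rw [div_one] at h3
    refine h3.congr ?_
    rw [mul_pow, map_pow]
    exact mul_div_cancel_right₀ _ (pow_ne_zero _ hy)
  have hcm : c ^ p ^ k ∈ A := levelOne_mem_of_redAt hconst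
  have hcmi : (c⁻¹) ^ p ^ k ∈ A := by
    have h4 := hconst.inv hrm
    rw [← map_inv₀, ← inv_pow] at h4
    exact levelOne_mem_of_redAt h4
  have hcA : c ∈ A := levelOne_mem_of_pow_mem hm hcm
  have hciA : c⁻¹ ∈ A := levelOne_mem_of_pow_mem hm hcmi
  -- the reduction of `y`
  have hci : RedAt A ψ (algebraMap Qb (FBar M) c⁻¹) _ := RedAt.const (ψ := ψ) hciA
  have hy1 := hci.mul hcy
  have hy2 : RedAt A ψ y _ := hy1.congr (by
    rw [map_inv₀, ← mul_assoc, inv_mul_cancel₀ hca, one_mul])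
  have hy3 := hy2.pow (p ^ k)
  have e1 := hy3.2.symm.trans h.2
  have e2 := levelOne_eq_one_of_pow hp k e1
  exact hy2.congr_res e2

end Roots

section Kummer

variable {M : ℕ} [NeZero M]

/-- **root extraction for Kummer generators**: if `p ^ (m + 1) E = div g` and `p [E] = 0`, then
`g = g₁ ^ (p ^ m)` with `p E = div g₁`. -/
theorem exists_pow_eq_of_isRootDiv {p : ℕ} (hp : p ≠ 0) {m : ℕ} {g : FBar M}
    {E : Divisor.degZero (K := Qb) (F := FBar M)} (hR : IsRootDiv (p ^ (m + 1)) g E)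
    (hx : (p : ℤ) • (Pic0.mk E : Pic0 Qb (FBar M)) = 0) :
    ∃ g₁ : FBar M, IsRootDiv p g₁ E ∧ g₁ ^ p ^ m = g := by
  have hpm : p ^ m ≠ 0 := pow_ne_zero m hp
  -- `p E = div y`
  have h1 : (Pic0.mk ((p : ℤ) • E) : Pic0 Qb (FBar M)) = 0 := by
    rw [← hx]
    exact map_zsmul (QuotientAddGroup.mk' _) (p : ℤ) E
  have h2 : ((p : ℤ) • E : Divisor.degZero (K := Qb) (F := FBar M)) ∈
      (Divisor.principal (K := Qb) (F := FBar M)).addSubgroupOf
        (Divisor.degZero (K := Qb) (F := FBar M)) :=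
    (QuotientAddGroup.eq_zero_iff _).mp h1
  obtain ⟨y, hy, hDy⟩ := h2
  have hRy : IsRootDiv p y E := by
    refine ⟨hy, fun v => ?_⟩
    rw [← hDy v]
    simp
  -- `g / y ^ (p ^ m)` is constant
  have hym : y ^ p ^ m ≠ 0 := pow_ne_zero _ hy
  have hz0 : g / y ^ p ^ m ≠ 0 := div_ne_zero hR.1 hym
  have hzord : ∀ v : Place Qb (FBar M), v.ord (g / y ^ p ^ m) = 0 := by
    intro v
    rw [div_eq_mul_inv, v.ord_mul hR.1 (inv_ne_zero hym), v.ord_inv, ← zpow_natCast y (p ^ m),
      v.ord_zpow, ← hR.2 v, ← hRy.2 v]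
    push_cast
    ring
  obtain ⟨c, hc0, hc⟩ := normRel_const_of_ord_eq_zero M hz0 hzord
  obtain ⟨d, hd⟩ := IsAlgClosed.exists_pow_nat_eq c (Nat.pos_of_ne_zero hpm)
  have hd0 : d ≠ 0 := by
    rintro rfl
    rw [zero_pow hpm] at hd
    exact hc0 hd.symm
  refine ⟨algebraMap Qb (FBar M) d * y, hRy.const_mul hd0, ?_⟩
  rw [mul_pow, ← map_pow, hd, ← hc]
  exact div_mul_cancel₀ _ hym

end Kummer

section Main

variable {M : ℕ} [NeZero M] (D : ALData) (hM : M = D.Q * D.R) (A : ValuationSubring Qb)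

/-- **(b) `K'` is level-independent**: a class killed by `p` with a Kummer generator of exponent
`p ^ n` reducing to `1` for both Gauss valuations has such a generator of exponent `p`. -/
theorem hasRedOneGen_one {p : ℕ} (hp : p.Prime) (hA : A.LiesOverPrime p) {n : ℕ}
    {x : JZero M} (h : HasRedOneGen D hM A p n x) (hx : p • x = 0) :
    HasRedOneGen D hM A p 1 x := by
  obtain ⟨E, g, hR, rfl, h1, h2⟩ := h
  cases n with
  | zero =>
    have h0 : (Pic0.mk E : Pic0 Qb (FBar M)) = 0 := by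
      have := hR.nsmul_mk_eq_zero
      rwa [pow_zero, Nat.cast_one, one_zsmul] at this
    have h3 := (HasRedOneGen.zero (D := D) (hM := hM) (A := A) (p := p)).raise 1
    rw [zero_add] at h3
    exact h0 ▸ h3
  | succ m =>
    have hx' : (p : ℤ) • (Pic0.mk E : Pic0 Qb (FBar M)) = 0 := by
      rw [natCast_zsmul]
      exact hx
    obtain ⟨g₁, hR₁, hg⟩ := exists_pow_eq_of_isRootDiv hp.ne_zero hR hx'
    refine ⟨E, g₁, ?_, rfl, ?_, ?_⟩
    · rw [pow_one]
      exact hR₁
    · exact redAt_one_of_pow hp hA _ m (hg ▸ h1)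
    · exact redAt_one_of_pow hp hA _ m (hg ▸ h2)

end Main

end Fermat.Agent.BadRed.PNew
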