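import Fermat.Agent.Lib.BadRed.Bridge.E1Any
import Fermat.Agent.Lib.BadRed.Bridge.LevelCast
import Fermat.Agent.Lib.BadRed.Bridge.NormRel
import Fermat.Agent.F3.I2.Deg.ALPushAt
import Fermat.Agent.F3.I2.RootClass

set_option autoImplicit false
set_option linter.style.haveILetI false
set_option linter.unusedSectionVars false

/-!
# S33-new, seat P-BR (helper46): the subgroups `K'`, `Sp` and step (G1)

Level `M = D.Q * D.R` (Atkin–Lehner data `D`), `A` a place of `ℚ̄`, `w = wAt D hM`.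

* `kPrime D hM A p`  : the classes of `J₀(M)(ℚ̄)` which have, for some `n`, a Kummer generator `g`
  of exponent `p ^ n` (`p ^ n • E = div g`, class `[E]`) with reduction `1` for BOTH Gauss
  valuations `v_∞` and `v_0 = v_∞ ∘ w`.  An additive subgroup.
* `mem_kPrime_of_inertia` (E1): for `x` killed by `p ^ n` and `τ` in the inertia group of `A`
  (`A` over the prime `D.Q`), `τ x - x ∈ K'`.  (From `exists_redOne_galFun_div'`, helper81.)
* `spSub N₀ p D hM A` : `Sp = ker α_* ∩ ker (α_* w_*) ∩ K'` at level `N₀ * p`.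
* `smul_sub_mem_spSub` **(G1)**: `x` killed by `p ^ n`, `α_* x = 0`, `α_* w_* x = 0`, `τ` inertial
  `⟹ τ x - x ∈ Sp`.
-/

noncomputable section

namespace Fermat.Agent.BadRed.PNew

open ModularCurve AlgebraicCurve Fermat.Agent.F3 Fermat.Agent.F3G Fermat.Agent.GaussInt
  Fermat.Agent.AtkinLehner Fermat.Agent.F3I2 Fermat.Agent.F3Deg Fermat.Agent.F3DegW
  Fermat.Agent.F3DegP

local notation "Qb" => AlgebraicClosure ℚ

/-- the modular function field over `ℚ̄` has principal divisors. -/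
theorem hasPD_bar (M : ℕ) [NeZero M] : HasPrincipalDivisors Qb (FBar M) :=
  ⟨(Fermat.Agent.RRMod.isRRField_bar M).principal⟩

section KPrime

variable (D : ALData) {M : ℕ} (hM : M = D.Q * D.R) (A : ValuationSubring Qb) (p : ℕ)

/-- `x` has a Kummer generator of exponent `p ^ n` with reduction `1` for both Gauss valuations. -/
def HasRedOneGen (n : ℕ) (x : JZero M) : Prop :=
  ∃ (E : Divisor.degZero (K := Qb) (F := FBar M)) (g : FBar M),
    IsRootDiv (p ^ n) g E ∧ Pic0.mk E = x ∧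
      RedAt A (AlgEquiv.refl : FBar M ≃ₐ[Qb] FBar M) g 1 ∧ RedAt A (wAt D hM) g 1

variable {D hM A p}

theorem HasRedOneGen.zero : HasRedOneGen D hM A p 0 (0 : JZero M) := by
  refine ⟨0, 1, ⟨one_ne_zero, fun v => ?_⟩, rfl, RedAt.one, RedAt.one⟩
  simp

theorem HasRedOneGen.neg {n : ℕ} {x : JZero M} (h : HasRedOneGen D hM A p n x) :
    HasRedOneGen D hM A p n (-x) := by
  obtain ⟨E, g, hR, rfl, h1, h2⟩ := h
  refine ⟨-E, g⁻¹, hR.inv, rfl, ?_, ?_⟩
  · have := h1.inv one_ne_zero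
    rwa [inv_one] at this
  · have := h2.inv one_ne_zero
    rwa [inv_one] at this

/-- raising the level. -/
theorem HasRedOneGen.raise {n : ℕ} {x : JZero M} (h : HasRedOneGen D hM A p n x) (m : ℕ) :
    HasRedOneGen D hM A p (n + m) x := by
  obtain ⟨E, g, hR, rfl, h1, h2⟩ := h
  refine ⟨E, g ^ p ^ m, ⟨pow_ne_zero _ hR.1, fun v => ?_⟩, rfl, ?_, ?_⟩
  · rw [← zpow_natCast g (p ^ m), Place.ord_zpow, ← hR.2 v]
    push_cast
    ring
  · have := h1.pow (p ^ m)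
    rwa [one_pow] at this
  · have := h2.pow (p ^ m)
    rwa [one_pow] at this

theorem HasRedOneGen.add {n m : ℕ} {x y : JZero M} (hx : HasRedOneGen D hM A p n x)
    (hy : HasRedOneGen D hM A p m y) : HasRedOneGen D hM A p (n + m) (x + y) := by
  obtain ⟨E, g, hR, rfl, h1, h2⟩ := hx.raise m
  have hy' := hy.raise n
  rw [add_comm m n] at hy'
  obtain ⟨E', g', hR', rfl, h1', h2'⟩ := hy'
  refine ⟨E + E', g * g', hR.mul hR', rfl, ?_, ?_⟩
  · have := h1.mul h1'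
    rwa [one_mul] at this
  · have := h2.mul h2'
    rwa [one_mul] at this

variable (D hM A p)

/-- **`K'`**: the classes which have a Kummer generator of `p`-power exponent with reduction `1`
for both Gauss valuations. -/
def kPrime : AddSubgroup (JZero M) where
  carrier := {x | ∃ n, HasRedOneGen D hM A p n x}
  zero_mem' := ⟨0, HasRedOneGen.zero⟩
  add_mem' := by
    rintro x y ⟨n, hx⟩ ⟨m, hy⟩
    exact ⟨n + m, hx.add hy⟩
  neg_mem' := by
    rintro x ⟨n, hx⟩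
    exact ⟨n, hx.neg⟩

variable {D hM A p}

theorem mem_kPrime_iff {x : JZero M} :
    x ∈ kPrime D hM A p ↔ ∃ n, HasRedOneGen D hM A p n x := Iff.rfl

/-- the elements of `K'` are `p`-power torsion. -/
theorem HasRedOneGen.nsmul_eq_zero {n : ℕ} {x : JZero M} (h : HasRedOneGen D hM A p n x) :
    (p ^ n) • x = 0 := by
  obtain ⟨E, g, hR, rfl, -, -⟩ := h
  have := hR.nsmul_mk_eq_zero
  rwa [natCast_zsmul] at this

/-- **(E1), class form**: inertia moves `p`-power torsion classes inside `K'`. -/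
theorem smul_sub_hasRedOneGen [NeZero M] (hQ : D.Q.Prime) (hA : A.LiesOverPrime D.Q)
    (hp : p ≠ 0) {n : ℕ} {x : JZero M} (hx : (p ^ n) • x = 0)
    {τ : Qb ≃ₐ[ℚ] Qb} (hτ : τ ∈ A.inertiaSubgroupIn ℚ) :
    HasRedOneGen D hM A p n (τ • x - x) := by
  subst hM
  have hpn : p ^ n ≠ 0 := pow_ne_zero n hp
  have hx' : ((p ^ n : ℕ) : ℤ) • x = 0 := by rwa [natCast_zsmul]
  obtain ⟨E, f, hR, rfl⟩ := exists_isRootDiv_of_torsion (p ^ n) x hx'
  have hdiv : ∀ P : Place Qb (FBar (D.Q * D.R)), ((p ^ n : ℕ) : ℤ) ∣ P.ord f :=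
    fun P => ⟨_, (hR.2 P).symm⟩
  obtain ⟨e, he0, hg0, hgdiv, hg1, hg2⟩ :=
    exists_redOne_galFun_div' D hQ (p ^ n) hpn A hA τ hτ f hR.1 hdiv
  haveI := hasPD_bar (D.Q * D.R)
  obtain ⟨E', hE'⟩ := exists_isRootDiv (K := Qb) (Nat.pos_of_ne_zero hpn) hg0 hgdiv
  set t := arithmeticGalois (modularFunctionFieldFull (D.Q * D.R)) τ with ht
  have htf : t • f ≠ 0 := by simpa using hR.1
  have hE₁ : ∀ v, ((p ^ n : ℕ) : ℤ) *
      (SemilinearAut.degZeroSMulHom t E : Divisor Qb (FBar (D.Q * D.R))) v = v.ord (t • f) :=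
    fun v => mul_smul_divisor_apply_eq_ord t _ hR.2 v
  have e1 : τ • Pic0.mk E = Pic0.mk (SemilinearAut.degZeroSMulHom t E) :=
    SemilinearAut.pic0_smul_mk t E
  have hrel : (e⁻¹) ^ (p ^ n) * (t • f) = (galFun (D.Q * D.R) τ f / f / e ^ (p ^ n)) * f ^ 1 := by
    have hen : e ^ (p ^ n) ≠ 0 := pow_ne_zero _ he0
    have hf0 := hR.1
    show (e⁻¹) ^ (p ^ n) * (t • f) = (t • f / f / e ^ (p ^ n)) * f ^ 1
    rw [inv_pow, pow_one]
    field_simp
  have key := mk_sub_add_nsmul_eq_zero_of_pow (p ^ n) hpn 1 E'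
    (SemilinearAut.degZeroSMulHom t E) E hg0 htf hR.1 hE'.2 hE₁ hR.2 hrel
  rw [one_smul] at key
  refine ⟨E', _, hE', ?_, hg1, ?_⟩
  · rw [e1]
    have h2 : Pic0.mk E' = Pic0.mk (SemilinearAut.degZeroSMulHom t E) - Pic0.mk E := by
      have h3 : Pic0.mk E' - (Pic0.mk (SemilinearAut.degZeroSMulHom t E) - Pic0.mk E) = 0 := by
        rw [← key]
        abel
      exact sub_eq_zero.mp h3
    exact h2
  · rw [wAt_eq_rfl]
    exact hg2

theorem smul_sub_mem_kPrime [NeZero M] (hQ : D.Q.Prime) (hA : A.LiesOverPrime D.Q)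
    (hp : p ≠ 0) {n : ℕ} {x : JZero M} (hx : (p ^ n) • x = 0)
    {τ : Qb ≃ₐ[ℚ] Qb} (hτ : τ ∈ A.inertiaSubgroupIn ℚ) :
    τ • x - x ∈ kPrime D hM A p :=
  ⟨n, smul_sub_hasRedOneGen hQ hA hp hx hτ⟩

end KPrime

section Sp

variable (N₀ p : ℕ) [NeZero N₀] [NeZero p] (D : ALData) (hM : N₀ * p = D.Q * D.R)
  (A : ValuationSubring Qb)

/-- **`Sp`**: the `p`-new classes of `J₀(N₀ p)(ℚ̄)` with a Kummer generator of `p`-power exponent
which reduces to `1` for both Gauss valuations. -/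
def spSub : AddSubgroup (JZero (N₀ * p)) :=
  (pushAlpha N₀ p).ker ⊓ ((pushAlpha N₀ p).comp (pushWAt D hM)).ker ⊓ kPrime D hM A p

variable {N₀ p D hM A}

theorem mem_spSub_iff {x : JZero (N₀ * p)} :
    x ∈ spSub N₀ p D hM A ↔ pushAlpha N₀ p x = 0 ∧ pushAlpha N₀ p (pushWAt D hM x) = 0 ∧
      ∃ n, HasRedOneGen D hM A p n x := by
  unfold spSub
  rw [AddSubgroup.mem_inf, AddSubgroup.mem_inf, AddMonoidHom.mem_ker, AddMonoidHom.mem_ker,
    AddMonoidHom.comp_apply, and_assoc]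
  rfl

/-- **(G1)**: for a `p`-new class `x` killed by `p ^ n` and `τ` in the inertia group at `A`
(a place over `p = D.Q`), `τ x - x ∈ Sp`. -/
theorem smul_sub_mem_spSub (hQ : D.Q.Prime) (hA : A.LiesOverPrime D.Q)
    {n : ℕ} {x : JZero (N₀ * p)} (hx : (p ^ n) • x = 0)
    (h1 : pushAlpha N₀ p x = 0) (h2 : pushAlpha N₀ p (pushWAt D hM x) = 0)
    {τ : Qb ≃ₐ[ℚ] Qb} (hτ : τ ∈ A.inertiaSubgroupIn ℚ) :
    τ • x - x ∈ spSub N₀ p D hM A := by
  haveI : NeZero (N₀ * p) := ⟨Nat.mul_ne_zero (NeZero.ne N₀) (NeZero.ne p)⟩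
  rw [mem_spSub_iff]
  refine ⟨?_, ?_, n, smul_sub_hasRedOneGen hQ hA (NeZero.ne p) hx hτ⟩
  · rw [map_sub, pushAlpha_smul, h1, sub_zero]
    exact smul_zero (A := JZero N₀) τ
  · rw [map_sub, pushWAt_smul, map_sub, pushAlpha_smul, h2, sub_zero]
    exact smul_zero (A := JZero N₀) τ

end Sp

end Fermat.Agent.BadRed.PNew
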