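import Mathlib
import Fermat.Agent.Lib.BadRed.PNew.WSplit
import Fermat.Agent.Lib.BadRed.PNew.SpDef

set_option autoImplicit false
set_option linter.style.haveILetI false
set_option linter.unusedSectionVars false
set_option linter.unusedVariables false
set_option synthInstance.maxHeartbeats 400000
set_option maxHeartbeats 1000000

/-!
# S33-new, P-BR (e2) (helper94): `p`-new classes have NEW Kummer generators

`isNewFn_of_pushAlpha_eq_zero` : `n E = div g` with `α_* [E] = 0` and `α_* w_* [E] = 0` gives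
`Norm_α g = c a ^ n` and `Norm_α (w g) = c' a' ^ n` (norm = pushforward); for `n = p` this is
`IsNewFn D hM g`.

`isNewFn_of_mem_spSub` : every Kummer generator of exponent `p` of a class of `Sp` is new.
-/

noncomputable section

namespace Fermat.Agent.BadRed.PNew

open ModularCurve AlgebraicCurve Fermat.Agent.F3 Fermat.Agent.F3G Fermat.Agent.GaussInt
  Fermat.Agent.AtkinLehner Fermat.Agent.F3I2 Fermat.Agent.F3Deg Fermat.Agent.F3DegW
  Fermat.Agent.F3DegP Fermat.Agent.BadRed

local notation "Qb" => AlgebraicClosure ℚ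

variable {N₀ p : ℕ} [NeZero N₀] [NeZero p] (D : ALData) (hM : N₀ * p = D.Q * D.R)

/-- **(e2), general exponent**: norms of Kummer generators of classes killed by `α_*` and
`α_* w_*`. -/
theorem exists_norms_of_pushAlpha_eq_zero {n : ℕ} (hn : n ≠ 0) {g : FBar (N₀ * p)}
    {E : Divisor.degZero (K := Qb) (F := FBar (N₀ * p))} (hE : IsRootDiv n g E)
    (h1 : pushAlpha N₀ p (Pic0.mk E) = 0)
    (h2 : pushAlpha N₀ p (pushWAt D hM (Pic0.mk E)) = 0) :
    (∃ (a : FBar N₀) (c : Qb), c ≠ 0 ∧
        normAlong (heckeAlphaBar Qb N₀ p) g = algebraMap Qb (FBar N₀) c * a ^ n) ∧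
      (∃ (a : FBar N₀) (c : Qb), c ≠ 0 ∧
        normAlong (heckeAlphaBar Qb N₀ p) (wAt D hM g) = algebraMap Qb (FBar N₀) c * a ^ n) := by
  refine ⟨exists_norm_eq_of_pushAlpha_eq_zero hn hE h1, ?_⟩
  obtain ⟨E', hE'1, hE'2⟩ := isRootDiv_pushWAt D hM hE
  rw [hE'1] at h2
  exact exists_norm_eq_of_pushAlpha_eq_zero hn hE'2 h2

/-- **(e2)**: a Kummer generator of exponent `p` of a `p`-new class is a new function. -/
theorem isNewFn_of_pushAlpha_eq_zero {g : FBar (N₀ * p)}
    {E : Divisor.degZero (K := Qb) (F := FBar (N₀ * p))} (hE : IsRootDiv p g E)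
    (h1 : pushAlpha N₀ p (Pic0.mk E) = 0)
    (h2 : pushAlpha N₀ p (pushWAt D hM (Pic0.mk E)) = 0) : IsNewFn D hM g :=
  exists_norms_of_pushAlpha_eq_zero D hM (NeZero.ne p) hE h1 h2

/-- every Kummer generator of exponent `p` of a class of `Sp` is a new function. -/
theorem isNewFn_of_mem_spSub {A : ValuationSubring Qb} {g : FBar (N₀ * p)}
    {E : Divisor.degZero (K := Qb) (F := FBar (N₀ * p))} (hE : IsRootDiv p g E)
    (hx : (Pic0.mk E : JZero (N₀ * p)) ∈ spSub N₀ p D hM A) : IsNewFn D hM g := by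
  rw [mem_spSub_iff] at hx
  exact isNewFn_of_pushAlpha_eq_zero D hM hE hx.1 hx.2.1

end Fermat.Agent.BadRed.PNew
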