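/-
S33-new, seat W-aux (helper84; architect helper66): three auxiliary lemmas for the (W1) assembly.

* `exists_zetaA`          : a primitive `p`-th root of unity as a unit `ζ` of `A | p`;
                            `ζ - 1` divides `p`, is nonzero and not a unit;
* `exists_sq_dvd_pow`     : a nonzero non-unit of `A` has a power divisible by `p ^ 2` (rank one);
* `exists_level_of_redAt` : a function `g ≠ 1` with residue `1` in the Gauss ring is `≡ 1` modulo a
                            nonzero non-unit `π` of `A`: `(g - 1) / π` lies in the Gauss ring.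
-/
import Mathlib
import Fermat.Agent.Lib.BadRed.Bridge.E1
import Fermat.Agent.Lib.BadRed.Bridge.NormRed
import Fermat.Agent.Lib.BadRed.Mod.Arch
import Fermat.Agent.Lib.FrobTrace.Residue

set_option autoImplicit false
set_option linter.unusedSectionVars false
set_option linter.unusedVariables false
set_option linter.style.haveILetI false

noncomputable section

namespace Fermat.Agent.BadRed.PNew

open ModularCurve AlgebraicCurve Fermat.Agent.F3 Fermat.Agent.F3G Fermat.Agent.GaussInt
  Fermat.Agent.BadRed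

local notation "Qb" => AlgebraicClosure ℚ

variable {p : ℕ} (hp : p.Prime) {A : ValuationSubring Qb} (hA : A.LiesOverPrime p)

include hp hA in
/-- **(iii)** a primitive `p`-th root of unity as a unit of `A`; `ζ - 1` divides `p`, is nonzero
and not a unit. -/
theorem exists_zetaA (ζ : Qbˣ) (hζ : IsPrimitiveRoot ζ p) :
    ∃ ζA : Aˣ, Units.map (A.subtype : A →* Qb) ζA = ζ ∧ IsPrimitiveRoot ζA p ∧
      ((ζA : A) - 1) ∣ (p : A) ∧ (ζA : A) - 1 ≠ 0 ∧ ¬ IsUnit ((ζA : A) - 1) := by
  haveI : Fact p.Prime := ⟨hp⟩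
  haveI : CharP (IsLocalRing.ResidueField A) p := Fermat.Agent.FrobTrace.charP_residueField A hA
  have hζpow : (ζ : Qb) ^ p = 1 := by
    rw [← Units.val_pow_eq_pow_val, hζ.pow_eq_one, Units.val_one]
  have hζinvpow : ((ζ⁻¹ : Qbˣ) : Qb) ^ p = 1 := by
    rw [← Units.val_pow_eq_pow_val, inv_pow, hζ.pow_eq_one, inv_one, Units.val_one]
  have hζA : (ζ : Qb) ∈ A := nr_mem_of_pow_eq_one A hp.pos hζpow
  have hζinvA : ((ζ⁻¹ : Qbˣ) : Qb) ∈ A := nr_mem_of_pow_eq_one A hp.pos hζinvpow
  let ζA : Aˣ := ⟨⟨ζ, hζA⟩, ⟨((ζ⁻¹ : Qbˣ) : Qb), hζinvA⟩,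
    Subtype.ext (by simp), Subtype.ext (by simp)⟩
  have hmap : Units.map (A.subtype : A →* Qb) ζA = ζ := Units.ext rfl
  have hinj : Function.Injective (Units.map (A.subtype : A →* Qb)) :=
    Units.map_injective Subtype.val_injective
  have hprim : IsPrimitiveRoot ζA p := by
    refine IsPrimitiveRoot.of_map_of_injective (f := Units.map (A.subtype : A →* Qb)) ?_ hinj
    rw [hmap]
    exact hζ
  have hprim' : IsPrimitiveRoot (ζA : A) p := IsPrimitiveRoot.coe_units_iff.mpr hprim
  refine ⟨ζA, hmap, hprim, hprim'.sub_one_dvd_natCast hp.one_lt, ?_, ?_⟩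
  · exact sub_ne_zero.mpr (hprim'.ne_one hp.one_lt)
  · -- the residue of `ζ` is `1`
    have h1 : Units.map (IsLocalRing.residue A : A →* IsLocalRing.ResidueField A) ζA = 1 :=
      Fermat.Agent.Kronecker.units_eq_one_of_pow_char_eq_one p _
        (by rw [← map_pow, hprim.pow_eq_one, map_one])
    have h2 : IsLocalRing.residue A (ζA : A) = 1 := by
      have := congrArg Units.val h1
      simpa using this
    have h3 : IsLocalRing.residue A ((ζA : A) - 1) = 0 := by
      rw [map_sub, h2, map_one, sub_self]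
    exact (IsLocalRing.mem_maximalIdeal _).mp ((IsLocalRing.residue_eq_zero_iff _).mp h3)

include hp hA in
/-- **(ii)** archimedean: a nonzero non-unit has a power divisible by `p ^ 2`. -/
theorem exists_sq_dvd_pow {μ : A} (hμ0 : μ ≠ 0) (hμ : ¬ IsUnit μ) :
    ∃ m : ℕ, (p : A) ^ 2 ∣ μ ^ m := by
  have hμ0' : (μ : Qb) ≠ 0 := fun h => hμ0 (Subtype.ext h)
  have hv : A.valuation (μ : Qb) < 1 := by
    refine lt_of_le_of_ne ((A.valuation_le_one_iff _).mpr μ.2) ?_
    intro h1
    exact hμ ((A.valuation_eq_one_iff μ).mpr h1)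
  have halgQ : Algebra.IsAlgebraic ℚ (AlgebraicClosure ℚ) := AlgebraicClosure.isAlgebraic ℚ
  have halg : IsAlgebraic ℚ (μ : Qb) := halgQ.isAlgebraic _
  obtain ⟨m, -, hm⟩ := exists_pow_valuation_le_prime hp hA hv hμ0' halg
  have hp0 : (p : Qb) ≠ 0 := by exact_mod_cast hp.ne_zero
  -- `p ∣ μ ^ m` in `A`
  have hmem : (μ : Qb) ^ m / (p : Qb) ∈ A := by
    rw [← A.valuation_le_one_iff, map_div₀, map_pow]
    exact (div_le_one₀ (zero_lt_iff.mpr ((Valuation.ne_zero_iff _).mpr hp0))).mpr hm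
  have hdvd : (p : A) ∣ μ ^ m := by
    refine ⟨⟨(μ : Qb) ^ m / (p : Qb), hmem⟩, ?_⟩
    apply Subtype.ext
    push_cast
    field_simp
  refine ⟨m * 2, ?_⟩
  rw [pow_mul]
  exact pow_dvd_pow_of_dvd hdvd 2

include hp hA in
/-- **(i)** initial level: a function `≡ 1` modulo the maximal ideal of the Gauss ring is `≡ 1`
modulo some nonzero non-unit `π` of `A`. -/
theorem exists_level_of_redAt {M : ℕ} [NeZero M] {g : FBar M}
    (hred : RedAt A (AlgEquiv.refl : FBar M ≃ₐ[Qb] FBar M) g 1) (hg1 : g ≠ 1) :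
    ∃ π : A, π ≠ 0 ∧ ¬ IsUnit π ∧
      ((g : LaurentSeries Qb) - 1) / algebraMap Qb (LaurentSeries Qb) (π : Qb) ∈
        gaussSub A (modularFunctionFieldBar M) := by
  obtain ⟨hgmem, hgres⟩ := hred
  have hgmem' : (g : LaurentSeries Qb) ∈ gaussSub A (modularFunctionFieldBar M) := hgmem
  have hgres' : gaussResFun A (modularFunctionFieldBar M) (g : LaurentSeries Qb) = 1 := hgres
  have hne : g - 1 ≠ 0 := sub_ne_zero.mpr hg1
  obtain ⟨c, hc0, hcmem, hcres⟩ := valueGroupAt M p hp A hA (g - 1) hne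
  have hcoe : ((g - 1 : FBar M) : LaurentSeries Qb) = (g : LaurentSeries Qb) - 1 := by
    push_cast
    rfl
  rw [hcoe] at hcmem hcres
  have hsubmem : (g : LaurentSeries Qb) - 1 ∈ gaussSub A (modularFunctionFieldBar M) :=
    sub_mem hgmem' (one_mem _)
  have hsubres : gaussResFun A (modularFunctionFieldBar M) ((g : LaurentSeries Qb) - 1) = 0 := by
    have h1 : gaussRes A (modularFunctionFieldBar M) (⟨_, hgmem'⟩ - 1) =
        gaussRes A (modularFunctionFieldBar M) ⟨_, hgmem'⟩ - 1 := by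
      rw [map_sub, map_one]
    have h2 : gaussRes A (modularFunctionFieldBar M) ⟨_, hgmem'⟩ = 1 := hgres'
    rw [h2, sub_self] at h1
    exact h1
  -- `c ∉ A`
  have hcA : c ∉ A := by
    intro hc
    apply hcres
    rw [gaussResFun_mul_of_mem (algebraMap_mem_gaussSub hc) hsubmem, hsubres, mul_zero]
  have hci : c⁻¹ ∈ A := (A.mem_or_inv_mem c).resolve_left hcA
  refine ⟨⟨c⁻¹, hci⟩, ?_, ?_, ?_⟩
  · intro h0
    have := congrArg Subtype.val h0
    exact inv_ne_zero hc0 this
  · intro hu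
    apply hcA
    have h1 : A.valuation (c⁻¹) = 1 := (A.valuation_eq_one_iff ⟨c⁻¹, hci⟩).mp hu
    rw [map_inv₀, inv_eq_one] at h1
    exact (A.valuation_le_one_iff c).mp h1.le
  · have e : ((g : LaurentSeries Qb) - 1) / algebraMap Qb (LaurentSeries Qb) c⁻¹ =
        algebraMap Qb (LaurentSeries Qb) c * ((g : LaurentSeries Qb) - 1) := by
      rw [map_inv₀, div_inv_eq_mul, mul_comm]
    show ((g : LaurentSeries Qb) - 1) / algebraMap Qb (LaurentSeries Qb) c⁻¹ ∈ _
    rw [e]
    exact hcmem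

end Fermat.Agent.BadRed.PNew
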