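import Mathlib
import Fermat.Agent.Lib.BadRed.PNew.WSplit

set_option autoImplicit false
set_option linter.style.haveILetI false
set_option linter.unusedSectionVars false
set_option linter.unusedVariables false
set_option synthInstance.maxHeartbeats 400000
set_option maxHeartbeats 1000000

/-!
# S33-new, seat W-new (helper94; architect helper66): stability of `IsNewFn`

* `IsNewFn.wAt`    : `g` new ⟹ `w g` new;
* `IsNewFn.of_mul` : `g = c₀ H ^ p x` new ⟹ `x` new.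
-/

noncomputable section

namespace Fermat.Agent.BadRed.PNew

open ModularCurve AlgebraicCurve Fermat.Agent.F3 Fermat.Agent.F3G Fermat.Agent.GaussInt
  Fermat.Agent.AtkinLehner Fermat.Agent.Kronecker

local notation "Qb" => AlgebraicClosure ℚ

variable {N₀ p : ℕ} [NeZero N₀] [NeZero p]

section New

variable (D : ALData) (hM : N₀ * p = D.Q * D.R)

/-- `g` new ⟹ `w g` new (`D`, `hM` explicit, as in `WSplit.lean`). -/
theorem IsNewFn.wAt {g : FBar (N₀ * p)} (h : IsNewFn D hM g) :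
    IsNewFn D hM (Fermat.Agent.BadRed.wAt D hM g) := by
  refine ⟨h.2, ?_⟩
  rw [wAt_wAt]
  exact h.1

variable {D hM} in
/-- `IsNewFn.wAt` with implicit `D`, `hM`. -/
theorem IsNewFn.wAt' {g : FBar (N₀ * p)} (h : IsNewFn D hM g) :
    IsNewFn D hM (Fermat.Agent.BadRed.wAt D hM g) :=
  IsNewFn.wAt D hM h

/-- the norm form of a quotient: if `Norm (c₀ H ^ p x) = c a ^ p` then `Norm x` is a constant
times a `p`-th power. -/
theorem exists_norm_eq_of_mul (hp : p.Prime) (hpN : ¬ p ∣ N₀) {y x H : FBar (N₀ * p)} {c₀ : Qb}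
    (hc₀ : c₀ ≠ 0) (hH : H ≠ 0)
    (hy : ∃ (a : FBar N₀) (c : Qb), c ≠ 0 ∧
      normAlong (heckeAlphaBar Qb N₀ p) y = algebraMap Qb (FBar N₀) c * a ^ p)
    (hyx : y = algebraMap Qb (FBar (N₀ * p)) c₀ * H ^ p * x) :
    ∃ (a : FBar N₀) (c : Qb), c ≠ 0 ∧
      normAlong (heckeAlphaBar Qb N₀ p) x = algebraMap Qb (FBar N₀) c * a ^ p := by
  obtain ⟨a, c, hc, hn⟩ := hy
  have hNH : normAlong (heckeAlphaBar Qb N₀ p) H ≠ 0 := normAlong_ne_zero' hp hpN hH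
  have hc₀p : c₀ ^ (p + 1) ≠ 0 := pow_ne_zero _ hc₀
  have hcF : algebraMap Qb (FBar N₀) (c₀ ^ (p + 1)) ≠ 0 :=
    (map_ne_zero_iff _ (algebraMap Qb (FBar N₀)).injective).mpr hc₀p
  have e : algebraMap Qb (FBar N₀) (c₀ ^ (p + 1)) *
      (normAlong (heckeAlphaBar Qb N₀ p) H) ^ p * normAlong (heckeAlphaBar Qb N₀ p) x =
        algebraMap Qb (FBar N₀) c * a ^ p := by
    have e1 : normAlong (heckeAlphaBar Qb N₀ p) y =
        algebraMap Qb (FBar N₀) (c₀ ^ (p + 1)) *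
          (normAlong (heckeAlphaBar Qb N₀ p) H) ^ p * normAlong (heckeAlphaBar Qb N₀ p) x := by
      rw [hyx, map_mul, map_mul, normAlong_const hp hpN,
        map_pow (normAlong (heckeAlphaBar Qb N₀ p)) H p]
    rw [← e1, hn]
  refine ⟨a / normAlong (heckeAlphaBar Qb N₀ p) H, c / c₀ ^ (p + 1), div_ne_zero hc hc₀p, ?_⟩
  rw [map_div₀, div_pow, div_mul_div_comm, eq_div_iff (mul_ne_zero hcF (pow_ne_zero _ hNH)), ← e]
  ring

/-- `g = c₀ H ^ p x` new ⟹ `x` new (`D`, `hM` explicit, as in `WSplit.lean`). -/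
theorem IsNewFn.of_mul (hp : p.Prime) (hpN : ¬ p ∣ N₀) {g x H : FBar (N₀ * p)} {c₀ : Qb}
    (hc₀ : c₀ ≠ 0) (hH : H ≠ 0) (hg : IsNewFn D hM g)
    (hgx : g = algebraMap Qb (FBar (N₀ * p)) c₀ * H ^ p * x) : IsNewFn D hM x := by
  refine ⟨exists_norm_eq_of_mul hp hpN hc₀ hH hg.1 hgx, ?_⟩
  have hwH : Fermat.Agent.BadRed.wAt D hM H ≠ 0 := wAt_ne_zero D hM hH
  refine exists_norm_eq_of_mul hp hpN hc₀ hwH hg.2 ?_
  rw [hgx, map_mul, map_mul, map_pow, AlgEquiv.commutes]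

variable {D hM} in
/-- `IsNewFn.of_mul` with implicit `D`, `hM`. -/
theorem IsNewFn.of_mul' (hp : p.Prime) (hpN : ¬ p ∣ N₀) {g x H : FBar (N₀ * p)} {c₀ : Qb}
    (hc₀ : c₀ ≠ 0) (hH : H ≠ 0) (hg : IsNewFn D hM g)
    (hgx : g = algebraMap Qb (FBar (N₀ * p)) c₀ * H ^ p * x) : IsNewFn D hM x :=
  IsNewFn.of_mul D hM hp hpN hc₀ hH hg hgx

end New

end Fermat.Agent.BadRed.PNew
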