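import Mathlib
import Fermat.Agent.Lib.BadRed.PNew.WSplit
import Fermat.Agent.Lib.BadRed.PNew.WNew
import Fermat.Agent.Lib.BadRed.PNew.WAux
import Fermat.Agent.Lib.FrobTrace.Residue

set_option autoImplicit false
set_option linter.style.haveILetI false
set_option linter.unusedSectionVars false
set_option linter.unusedVariables false
set_option synthInstance.maxHeartbeats 400000
set_option maxHeartbeats 1000000

/-!
# S33-new, (W1): the main theorem `w1_split`  (helper66)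

`g ∈ F_{N₀ p}` NEW (`IsNewFn`), `g ≡ 1` modulo the maximal ideal of the Gauss ring at a place
`A | p` ⟹ `g = c H ^ p G` with `G ≡ 1 mod p ^ 2` in the Gauss ring.

Iteration of the double step `g = c H^p Nφ (Nφ g)` (`exists_eq_mul_nphi_nphi`) with the
contraction `LevP.contract`: each `Nφ` multiplies the level by `μ`, where `μ ∣ ζ - 1` and
`μ ∣ π ^ (p - 1)` (`π` the initial level).
-/

noncomputable section

namespace Fermat.Agent.BadRed.PNew

open ModularCurve AlgebraicCurve Fermat.Agent.F3 Fermat.Agent.F3G Fermat.Agent.GaussInt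
  Fermat.Agent.AtkinLehner Fermat.Agent.Kronecker

local notation "Qb" => AlgebraicClosure ℚ

variable {N₀ p : ℕ} [NeZero N₀] [NeZero p]

section Step

variable (D : ALData) (hM : N₀ * p = D.Q * D.R) (hp : p.Prime) (hpN : ¬ p ∣ N₀)
  (A : ValuationSubring Qb) (hA : A.LiesOverPrime p)
  (ζA : Aˣ) (hζA : IsPrimitiveRoot ζA p) (hpl : ((ζA : A) - 1) ∣ (p : A))
  (hE : ∀ x : FBar (N₀ * p),
      qExpand Qb p ((normAlong (heckeAlphaBar Qb N₀ p) x : FBar N₀) : LaurentSeries Qb) =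
        qExpand Qb p (x : LaurentSeries Qb) *
          ∏ i ∈ Finset.range p,
            scaleL ((Units.map (A.subtype : A →* Qb) ζA) ^ i)
              ((wAt D hM x : FBar (N₀ * p)) : LaurentSeries Qb))

include hp hE in
/-- the modular function field is stable under the multiplicative `U_p`. -/
theorem exists_nphi_mem (z : LaurentSeries Qb) (hz : z ∈ modularFunctionFieldBar (N₀ * p)) :
    ∃ n ∈ modularFunctionFieldBar (N₀ * p), qExpand Qb p n =
      ∏ b ∈ Finset.range p, scaleL ((Units.map (A.subtype : A →* Qb) ζA) ^ b) z :=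
  ⟨((nphi D hM ⟨z, hz⟩ : FBar (N₀ * p)) : LaurentSeries Qb), (nphi D hM ⟨z, hz⟩).2,
    qExpand_nphi D hM hp _ hE ⟨z, hz⟩⟩

include hp hA hζA hpl hE in
/-- one application of `Nφ` raises the level. -/
theorem levP_nphi {π π' : A} (hπ' : π' ≠ 0) (h1 : π' ∣ π * ((ζA : A) - 1)) (h2 : π' ∣ π ^ p)
    {x : FBar (N₀ * p)}
    (hx : LevP A (modularFunctionFieldBar (N₀ * p)) π (x : LaurentSeries Qb)) :
    LevP A (modularFunctionFieldBar (N₀ * p)) π'
      ((nphi D hM x : FBar (N₀ * p)) : LaurentSeries Qb) := by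
  haveI : Fact p.Prime := ⟨hp⟩
  haveI : CharP (IsLocalRing.ResidueField A) p := FrobTrace.charP_residueField A hA
  exact LevP.contract p ζA hζA hpl (exists_nphi_mem D hM hp A ζA hE) hπ' h1 h2
    (nphi D hM x).2 (qExpand_nphi D hM hp _ hE x) hx

include hp hpN hA hζA hpl hE in
/-- **the double step raises the level by `μ ^ 2`.** -/
theorem exists_levP_step {g : FBar (N₀ * p)} (hg : g ≠ 0) (hnew : IsNewFn D hM g) {π μ : A}
    (hπ : π ≠ 0) (hμ : μ ≠ 0) (hμl : μ ∣ (ζA : A) - 1) (hμπ : μ ∣ π ^ (p - 1))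
    (hx : LevP A (modularFunctionFieldBar (N₀ * p)) π (g : LaurentSeries Qb)) :
    ∃ (H : FBar (N₀ * p)) (c₀ : Qb), c₀ ≠ 0 ∧ H ≠ 0 ∧
      LevP A (modularFunctionFieldBar (N₀ * p)) (π * μ * μ)
        ((g / (algebraMap Qb (FBar (N₀ * p)) c₀ * H ^ p) : FBar (N₀ * p)) :
          LaurentSeries Qb) := by
  obtain ⟨H, c₀, hc₀, hH, hgeq⟩ := exists_eq_mul_nphi_nphi D hM hp hpN hg hnew
  refine ⟨H, c₀, hc₀, hH, ?_⟩
  have hcF : algebraMap Qb (FBar (N₀ * p)) c₀ ≠ 0 :=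
    (map_ne_zero_iff _ (algebraMap Qb (FBar (N₀ * p))).injective).mpr hc₀
  have hne : algebraMap Qb (FBar (N₀ * p)) c₀ * H ^ p ≠ 0 :=
    mul_ne_zero hcF (pow_ne_zero _ hH)
  have hquot : g / (algebraMap Qb (FBar (N₀ * p)) c₀ * H ^ p) =
      nphi D hM (nphi D hM g) := by
    rw [div_eq_iff hne]
    exact hgeq.trans (mul_comm _ _)
  rw [hquot]
  have hp1 : p = (p - 1) + 1 := (Nat.sub_add_cancel hp.one_le).symm
  have hp2 : p - 1 ≠ 0 := Nat.sub_ne_zero_of_lt hp.one_lt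
  have l1 : LevP A (modularFunctionFieldBar (N₀ * p)) (π * μ)
      ((nphi D hM g : FBar (N₀ * p)) : LaurentSeries Qb) := by
    refine levP_nphi D hM hp A hA ζA hζA hpl hE (mul_ne_zero hπ hμ) (mul_dvd_mul_left π hμl) ?_ hx
    have : π ^ p = π * π ^ (p - 1) := by
      conv_lhs => rw [hp1]
      rw [pow_succ']
    rw [this]
    exact mul_dvd_mul_left π hμπ
  refine levP_nphi D hM hp A hA ζA hζA hpl hE (mul_ne_zero (mul_ne_zero hπ hμ) hμ)
    (mul_dvd_mul_left (π * μ) hμl) ?_ l1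
  have : (π * μ) ^ p = (π * μ) * (π * μ) ^ (p - 1) := by
    conv_lhs => rw [hp1]
    rw [pow_succ']
  rw [this]
  exact mul_dvd_mul_left (π * μ) (dvd_pow (Dvd.intro_left π rfl) hp2)

include hp hpN hA hζA hpl hE in
/-- **iteration.** -/
theorem exists_levP_iter {π μ : A} (hπ : π ≠ 0) (hμ : μ ≠ 0) (hμl : μ ∣ (ζA : A) - 1)
    (hμπ : μ ∣ π ^ (p - 1)) (j : ℕ) :
    ∀ {g : FBar (N₀ * p)}, g ≠ 0 → IsNewFn D hM g →
      LevP A (modularFunctionFieldBar (N₀ * p)) π (g : LaurentSeries Qb) →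
      ∃ (H : FBar (N₀ * p)) (c₀ : Qb), c₀ ≠ 0 ∧ H ≠ 0 ∧
        LevP A (modularFunctionFieldBar (N₀ * p)) (π * μ ^ (2 * j))
          ((g / (algebraMap Qb (FBar (N₀ * p)) c₀ * H ^ p) : FBar (N₀ * p)) :
            LaurentSeries Qb) := by
  induction j with
  | zero =>
    intro g hg hnew hx
    refine ⟨1, 1, one_ne_zero, one_ne_zero, ?_⟩
    have e : g / (algebraMap Qb (FBar (N₀ * p)) 1 * 1 ^ p) = g := by
      rw [map_one, one_pow, mul_one, div_one]
    rw [e, Nat.mul_zero, pow_zero, mul_one]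
    exact hx
  | succ j ih =>
    intro g hg hnew hx
    obtain ⟨H, c₀, hc₀, hH, hL⟩ := ih hg hnew hx
    have hcF : algebraMap Qb (FBar (N₀ * p)) c₀ ≠ 0 :=
      (map_ne_zero_iff _ (algebraMap Qb (FBar (N₀ * p))).injective).mpr hc₀
    have hne : algebraMap Qb (FBar (N₀ * p)) c₀ * H ^ p ≠ 0 :=
      mul_ne_zero hcF (pow_ne_zero _ hH)
    set G : FBar (N₀ * p) := g / (algebraMap Qb (FBar (N₀ * p)) c₀ * H ^ p) with hG
    have hG0 : G ≠ 0 := div_ne_zero hg hne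
    have hgG : g = algebraMap Qb (FBar (N₀ * p)) c₀ * H ^ p * G := by
      rw [hG, mul_div_cancel₀ _ hne]
    have hGnew : IsNewFn D hM G := IsNewFn.of_mul D hM hp hpN hc₀ hH hnew hgG
    have hπj : π * μ ^ (2 * j) ≠ 0 := mul_ne_zero hπ (pow_ne_zero _ hμ)
    have hμπj : μ ∣ (π * μ ^ (2 * j)) ^ (p - 1) :=
      hμπ.trans (pow_dvd_pow_of_dvd (Dvd.intro _ rfl) _)
    obtain ⟨H', c', hc', hH', hL'⟩ :=
      exists_levP_step D hM hp hpN A hA ζA hζA hpl hE hG0 hGnew hπj hμ hμl hμπj hL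
    refine ⟨H * H', c₀ * c', mul_ne_zero hc₀ hc', mul_ne_zero hH hH', ?_⟩
    have hcF' : algebraMap Qb (FBar (N₀ * p)) c' ≠ 0 :=
      (map_ne_zero_iff _ (algebraMap Qb (FBar (N₀ * p))).injective).mpr hc'
    have e1 : g / (algebraMap Qb (FBar (N₀ * p)) (c₀ * c') * (H * H') ^ p) =
        G / (algebraMap Qb (FBar (N₀ * p)) c' * H' ^ p) := by
      rw [hG, map_mul, mul_pow, div_div]
      congr 1
      ring
    have e2 : π * μ ^ (2 * (j + 1)) = π * μ ^ (2 * j) * μ * μ := by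
      ring
    rw [e1, e2]
    exact hL'

end Step

section Main

variable (D : ALData) (hM : N₀ * p = D.Q * D.R) (hp : p.Prime) (hpN : ¬ p ∣ N₀)
  (hQ : D.Q = p) (hR : D.R = N₀)
  (A : ValuationSubring Qb) (hA : A.LiesOverPrime p)

include hp in
/-- the step size `μ`. -/
theorem exists_step_size {l π : A} (hl0 : l ≠ 0) (hlu : ¬ IsUnit l) (hπ0 : π ≠ 0)
    (hπu : ¬ IsUnit π) :
    ∃ μ : A, μ ≠ 0 ∧ ¬ IsUnit μ ∧ μ ∣ l ∧ μ ∣ π ^ (p - 1) := by
  have hp2 : p - 1 ≠ 0 := Nat.sub_ne_zero_of_lt hp.one_lt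
  rcases ValuationRing.dvd_total l (π ^ (p - 1)) with h | h
  · exact ⟨l, hl0, hlu, dvd_rfl, h⟩
  · exact ⟨π ^ (p - 1), pow_ne_zero _ hπ0, fun hu => hπu ((isUnit_pow_iff hp2).mp hu), h,
      dvd_rfl⟩

include hp hpN hQ hR hA in
/-- **(W1)**: a NEW function which is `≡ 1` modulo the maximal ideal of the Gauss ring is a
constant times a `p`-th power times a function `≡ 1 mod p ^ 2`. -/
theorem w1_split {g : FBar (N₀ * p)} (hg : g ≠ 0) (hnew : IsNewFn D hM g)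
    (hred : RedAt A (AlgEquiv.refl : FBar (N₀ * p) ≃ₐ[Qb] FBar (N₀ * p)) g 1) :
    ∃ (H : FBar (N₀ * p)) (c : Qb), H ≠ 0 ∧ c ≠ 0 ∧
      (((g / (algebraMap Qb (FBar (N₀ * p)) c * H ^ p) - 1) /
          algebraMap Qb (FBar (N₀ * p)) ((p : Qb) ^ 2) : FBar (N₀ * p)) : LaurentSeries Qb) ∈
        gaussSub A (modularFunctionFieldBar (N₀ * p)) := by
  by_cases hg1 : g = 1
  · refine ⟨1, 1, one_ne_zero, one_ne_zero, ?_⟩
    have e : (g / (algebraMap Qb (FBar (N₀ * p)) 1 * 1 ^ p) - 1) /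
        algebraMap Qb (FBar (N₀ * p)) ((p : Qb) ^ 2) = 0 := by
      rw [hg1, map_one, one_pow, mul_one, div_one, sub_self, zero_div]
    rw [e]
    exact zero_mem (gaussSub A (modularFunctionFieldBar (N₀ * p)))
  obtain ⟨ζ, hζ, hE⟩ := norm_expansion_wAt hp hpN D hQ hR hM
  obtain ⟨ζA, hmap, hζA, hpl, hl0, hlu⟩ := exists_zetaA hp hA ζ hζ
  rw [← hmap] at hE
  obtain ⟨π, hπ0, hπu, hmem⟩ := exists_level_of_redAt hp hA hred hg1
  have hπK : (π : Qb) ≠ 0 := fun h => hπ0 (Subtype.ext h)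
  have hx : LevP A (modularFunctionFieldBar (N₀ * p)) π (g : LaurentSeries Qb) :=
    levP_of_mem hπK hmem
  obtain ⟨μ, hμ0, hμu, hμl, hμπ⟩ := exists_step_size hp A hl0 hlu hπ0 hπu
  obtain ⟨m, hm⟩ := exists_sq_dvd_pow hp hA hμ0 hμu
  obtain ⟨H, c₀, hc₀, hH, hL⟩ :=
    exists_levP_iter D hM hp hpN A hA ζA hζA hpl hE hπ0 hμ0 hμl hμπ m hg hnew hx
  refine ⟨H, c₀, hH, hc₀, ?_⟩
  have hdvd : (p : A) ^ 2 ∣ π * μ ^ (2 * m) :=
    hm.trans (dvd_mul_of_dvd_right (pow_dvd_pow μ (by omega)) π)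
  have hL' := hL.of_dvd hdvd
  have hp0 : (((p : A) ^ 2 : A) : Qb) ≠ 0 := by
    push_cast
    exact pow_ne_zero _ (Nat.cast_ne_zero.mpr hp.ne_zero)
  have h3 := hL'.sub_one_div_mem hp0
  have e : ((((g / (algebraMap Qb (FBar (N₀ * p)) c₀ * H ^ p) - 1) /
      algebraMap Qb (FBar (N₀ * p)) ((p : Qb) ^ 2) : FBar (N₀ * p)) : LaurentSeries Qb)) =
      (((g / (algebraMap Qb (FBar (N₀ * p)) c₀ * H ^ p) : FBar (N₀ * p)) :
          LaurentSeries Qb) - 1) /
        algebraMap Qb (LaurentSeries Qb) (((p : A) ^ 2 : A) : Qb) := by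
    have e_den : ((algebraMap Qb (FBar (N₀ * p)) ((p : Qb) ^ 2) : FBar (N₀ * p)) :
        LaurentSeries Qb) = algebraMap Qb (LaurentSeries Qb) (((p : A) ^ 2 : A) : Qb) := by
      push_cast
      rfl
    rw [IntermediateField.coe_div, e_den]
    rfl
  rw [e]
  exact h3

end Main

end Fermat.Agent.BadRed.PNew
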